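import Fermat.Agent.GAL.PC.Defs
import Fermat.Agent.GAL.CycloChar
import Fermat.Prelude.Def_GaloisRep_ComplexConjugation

/-!
# The mod `m` cyclotomic character for arbitrary `m` (project GAL/PC)

Generalises `GAL/CycloChar.lean`, section `Places`, from a prime `p` to any `m` prime to `ℓ`;
complex conjugation; the cyclotomic character with values in a ring killed by `m`.
-/

set_option autoImplicit false
open Polynomial
open Fermat.Agent.S54 Fermat.Agent.Bridge Fermat.Agent.GAL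

namespace Fermat.Agent.GAL.PC

local notation "Qbar" => AlgebraicClosure ℚ
local notation "GQ" => (AlgebraicClosure ℚ ≃ₐ[ℚ] AlgebraicClosure ℚ)
local notation "Zbar" => integralClosure ℤ (AlgebraicClosure ℚ)

section Places

variable {ℓ : ℕ} {A : ValuationSubring Qbar} {σ : GQ}

/-- `m` prime to `ℓ` is non-zero in the residue ring of a place above `ℓ`. -/
theorem natCast_mk_centre_ne_zero (m : ℕ) (hℓm : Nat.Coprime ℓ m) (hA : A.LiesOverPrime ℓ) :
    ((m : ℕ) : Zbar ⧸ centre A) ≠ 0 := by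
  intro h2
  have h3 : (m : Zbar) ∈ centre A := by
    rw [← Ideal.Quotient.eq_zero_iff_mem, map_natCast]
    exact h2
  have h4 : (ℓ : Zbar) ∈ centre A := natCast_mem_centre hA
  have h5 : (1 : Zbar) ∈ centre A := by
    obtain ⟨a, b, hab⟩ := Nat.isCoprime_iff_coprime.mpr hℓm
    have h7 : (1 : Zbar) = (a : Zbar) * (ℓ : Zbar) + (b : Zbar) * (m : Zbar) := by
      have := congrArg (Int.cast : ℤ → Zbar) hab
      push_cast at this
      exact this.symm
    rw [h7]
    exact add_mem (Ideal.mul_mem_left _ _ h4) (Ideal.mul_mem_left _ _ h3)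
  exact (centre_isPrime A).ne_top ((Ideal.eq_top_iff_one _).mpr h5)

/-- A primitive `m`-th root of unity has order `m` modulo a place not dividing `m`. -/
theorem orderOf_mk_primitiveRoot' (m : ℕ) [NeZero m] (hℓm : Nat.Coprime ℓ m)
    (hA : A.LiesOverPrime ℓ) {ζ : Zbar} (hζ : IsPrimitiveRoot (ζ : Qbar) m) :
    orderOf (Ideal.Quotient.mk (centre A) ζ) = m := by
  have hζ' : IsPrimitiveRoot ζ m :=
    IsPrimitiveRoot.of_map_of_injective (f := (integralClosure ℤ Qbar).val) hζ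
      Subtype.val_injective
  haveI : (centre A).IsPrime := centre_isPrime A
  haveI : NeZero ((m : ℕ) : Zbar ⧸ centre A) := ⟨natCast_mk_centre_ne_zero m hℓm hA⟩
  have hroot : (cyclotomic m Zbar).IsRoot ζ :=
    hζ'.isRoot_cyclotomic (Nat.pos_of_ne_zero (NeZero.ne m))
  have h2 : (cyclotomic m (Zbar ⧸ centre A)).IsRoot (Ideal.Quotient.mk (centre A) ζ) := by
    rw [IsRoot.def, ← map_cyclotomic m (Ideal.Quotient.mk (centre A)), eval_map_apply,
      hroot.eq_zero, map_zero]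
  exact (isRoot_cyclotomic_iff.1 h2).eq_orderOf.symm

theorem cycloChar_eq_of_sub_mem' (m : ℕ) [NeZero m] (hℓm : Nat.Coprime ℓ m)
    (hA : A.LiesOverPrime ℓ) {c : ℕ}
    (h : ∀ b : Zbar, σ • b - b ^ c ∈ centre A) : (cycloChar m σ : ZMod m) = c := by
  obtain ⟨ζ, hζ⟩ := exists_primitiveRoot_Zbar m
  have h1 := cycloChar_spec m σ hζ.pow_eq_one
  have h2 : σ • ζ = ζ ^ ((cycloChar m σ : ZMod m)).val := Subtype.ext h1
  have h3 := h ζ
  have hord := orderOf_mk_primitiveRoot' m hℓm hA hζ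
  have hfin : IsOfFinOrder (Ideal.Quotient.mk (centre A) ζ) := by
    rw [← orderOf_pos_iff, hord]
    exact Nat.pos_of_ne_zero (NeZero.ne m)
  rw [h2, ← Ideal.Quotient.eq_zero_iff_mem, map_sub, map_pow, map_pow, sub_eq_zero,
    hfin.pow_eq_pow_iff_modEq, hord] at h3
  rw [← ZMod.natCast_zmod_val (cycloChar m σ : ZMod m)]
  exact (ZMod.natCast_eq_natCast_iff _ _ _).mpr h3

end Places

/-- `χ_m(Frob_ℓ) = ℓ`. -/
theorem cycloChar_of_isFrobeniusAt' (m : ℕ) [NeZero m] {ℓ : ℕ} (hℓ : ℓ.Prime)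
    (hℓm : Nat.Coprime ℓ m) {A : ValuationSubring Qbar} (hA : A.LiesOverPrime ℓ) {σ : GQ}
    (hσ : A.IsFrobeniusAt σ ℓ) : (cycloChar m σ : ZMod m) = ℓ :=
  cycloChar_eq_of_sub_mem' m hℓm hA (sub_pow_mem_centre_of_isFrobeniusAt hσ)

/-- `χ_m` is unramified outside `m`. -/
theorem cycloChar_of_mem_inertia' (m : ℕ) [NeZero m] {ℓ : ℕ} (hℓ : ℓ.Prime)
    (hℓm : Nat.Coprime ℓ m) {A : ValuationSubring Qbar} (hA : A.LiesOverPrime ℓ) {σ : GQ}
    (hσ : σ ∈ A.inertiaSubgroupIn ℚ) : cycloChar m σ = 1 := by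
  have := cycloChar_eq_of_sub_mem' (c := 1) m hℓm hA (fun b => by
    rw [pow_one]; exact sub_mem_centre_of_mem_inertia hσ b)
  exact Units.ext (by simpa using this)

/-- complex conjugation inverts roots of unity -/
theorem complexConjugation_mul_self_of_pow_eq_one {m : ℕ} [NeZero m] {ζ : Qbar}
    (hζ : ζ ^ m = 1) : complexConjugation ζ * ζ = 1 := by
  apply complexEmbedding.toRingHom.injective
  show complexEmbedding (complexConjugation ζ * ζ) = complexEmbedding 1
  have h1 : (complexEmbedding ζ) ^ m = 1 := by rw [← map_pow, hζ, map_one]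
  have h2 : ‖complexEmbedding ζ‖ = 1 := Complex.norm_eq_one_of_pow_eq_one h1 (NeZero.ne m)
  have h0 : complexEmbedding ζ ≠ 0 := by
    intro h0
    rw [h0, norm_zero] at h2
    exact zero_ne_one h2
  rw [map_mul, map_one, complexEmbedding_complexConjugation, ← Complex.inv_eq_conj h2,
    inv_mul_cancel₀ h0]

theorem cycloChar_complexConjugation (m : ℕ) [NeZero m] :
    (cycloChar m complexConjugation : ZMod m) = -1 := by
  obtain ⟨ζ, hζ⟩ := exists_primitiveRoot_Zbar m
  have hm : 0 < m := Nat.pos_of_ne_zero (NeZero.ne m)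
  have h1 := complexConjugation_mul_self_of_pow_eq_one hζ.pow_eq_one
  have h2 : (ζ : Qbar) ^ (m - 1) * (ζ : Qbar) = 1 := by
    rw [← pow_succ, Nat.sub_add_cancel hm, hζ.pow_eq_one]
  have h0 : (ζ : Qbar) ≠ 0 := hζ.ne_zero (NeZero.ne m)
  have h3 : complexConjugation (ζ : Qbar) = (ζ : Qbar) ^ (m - 1) :=
    mul_right_cancel₀ h0 (h1.trans h2.symm)
  rw [cycloChar_eq_of_primitiveRoot m complexConjugation hζ h3, Nat.cast_sub hm,
    ZMod.natCast_self, Nat.cast_one, zero_sub]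

theorem exists_complexConj : ∃ c₀ : GQ, c₀ * c₀ = 1 ∧
    ∀ (m : ℕ) [NeZero m], (cycloChar m c₀ : ZMod m) = -1 :=
  ⟨complexConjugation, complexConjugation_mul_self, fun m _ => cycloChar_complexConjugation m⟩

/-- the cyclotomic character with values in a ring killed by `m` -/
noncomputable def cycTo (R : Type*) [CommRing R] (m : ℕ) [NeZero m] (h : (m : R) = 0) : GQ →* R :=
  ((ZMod.castHom (ringChar.dvd h) R : ZMod m →+* R) : ZMod m →* R).comp
    ((Units.coeHom (ZMod m)).comp (cycloChar m))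

theorem cycTo_apply (R : Type*) [CommRing R] (m : ℕ) [NeZero m] (h : (m : R) = 0) (σ : GQ) :
    cycTo R m h σ = ZMod.castHom (ringChar.dvd h) R (cycloChar m σ : ZMod m) := rfl

theorem isCyc_cycTo (R : Type*) [CommRing R] (m : ℕ) [NeZero m] (h : (m : R) = 0) (S : Set ℕ)
    (hS : ∀ ℓ : ℕ, ℓ.Prime → ℓ ∣ m → ℓ ∈ S) : IsCyc S (cycTo R m h) where
  lvl := by
    obtain ⟨L, hL, h1⟩ := cycloChar_finiteLevel m
    exact ⟨L, hL, fun τ hτ => by rw [cycTo_apply, h1 τ hτ, Units.val_one, map_one]⟩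
  frob := fun ℓ hℓ hℓS A hA σ hσ => by
    have hcop : Nat.Coprime ℓ m := (Nat.Prime.coprime_iff_not_dvd hℓ).2 fun hd => hℓS (hS ℓ hℓ hd)
    rw [cycTo_apply, cycloChar_of_isFrobeniusAt' m hℓ hcop hA hσ, map_natCast]

end Fermat.Agent.GAL.PC
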