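import Mathlib

/-!
# Stable lattices (project GAL/PC)

A representation `ρ : G →* M₂(K)` with bounded denominators over a PID `O` (`K = Frac O`) is
conjugate to a representation with values in `M₂(O)`.
-/

set_option autoImplicit false

namespace Fermat.Agent.GAL.PC

open Matrix

theorem exists_integral_conj {O K : Type*} [CommRing O] [IsDomain O] [IsPrincipalIdealRing O]
    [Field K] [Algebra O K] [IsFractionRing O K] {G : Type*} [Monoid G]
    (ρ : G →* Matrix (Fin 2) (Fin 2) K) (d : O) (hd : d ≠ 0)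
    (h : ∀ g i j, ∃ y : O, algebraMap O K y = algebraMap O K d * ρ g i j) :
    ∃ (P : GL (Fin 2) K) (ρ' : G →* Matrix (Fin 2) (Fin 2) O),
      ∀ g, (ρ' g).map (algebraMap O K) =
        (↑P⁻¹ : Matrix (Fin 2) (Fin 2) K) * ρ g * (↑P : Matrix (Fin 2) (Fin 2) K) := by
  classical
  have hinj : Function.Injective (algebraMap O K) := IsFractionRing.injective O K
  have hdK : algebraMap O K d ≠ 0 := by
    rw [Ne, map_eq_zero_iff _ hinj]; exact hd
  -- the lattice spanned by all columns
  let Λ : Submodule O (Fin 2 → K) :=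
    Submodule.span O (Set.range fun x : G × Fin 2 => fun i => ρ x.1 i x.2)
  -- stability
  have hstab : ∀ g, ∀ v ∈ Λ, (ρ g) *ᵥ v ∈ Λ := by
    intro g v hv
    induction hv using Submodule.span_induction with
    | mem x hx =>
      obtain ⟨⟨g', j⟩, rfl⟩ := hx
      refine Submodule.subset_span ⟨(g * g', j), ?_⟩
      funext i
      simp only [map_mul, Matrix.mul_apply, Matrix.mulVec, dotProduct]
    | zero => simp
    | add x y _ _ hx hy => rw [Matrix.mulVec_add]; exact Λ.add_mem hx hy
    | smul a x _ hx => rw [Matrix.mulVec_smul]; exact Λ.smul_mem a hx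
  -- contains the standard basis
  have hstd : ∀ j : Fin 2, (Pi.basisFun K (Fin 2)) j ∈ Λ := by
    intro j
    refine Submodule.subset_span ⟨(1, j), ?_⟩
    funext i
    simp [Matrix.one_apply, Pi.single_apply]
  -- finite generation
  let f : (Fin 2 → O) →ₗ[O] (Fin 2 → K) :=
    { toFun := fun w i => (algebraMap O K d)⁻¹ * algebraMap O K (w i)
      map_add' := fun x y => by funext i; simp [mul_add]
      map_smul' := fun c x => by
        funext i
        simp only [Pi.smul_apply, smul_eq_mul, map_mul, RingHom.id_apply, Algebra.smul_def]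
        ring }
  have hle : Λ ≤ LinearMap.range f := by
    refine Submodule.span_le.mpr ?_
    rintro _ ⟨⟨g, j⟩, rfl⟩
    choose y hy using fun i => h g i j
    refine ⟨y, ?_⟩
    funext i
    change (algebraMap O K d)⁻¹ * algebraMap O K (y i) = ρ g i j
    rw [hy, inv_mul_cancel_left₀ hdK]
  have : IsNoetherian O Λ := isNoetherian_of_le hle
  have : Module.Finite O Λ := inferInstance
  have : Module.IsTorsionFree O Λ := inferInstance
  obtain ⟨n, b⟩ := Module.basisOfFiniteTypeTorsionFree' (R := O) (M := Λ)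
  let v : Fin n → Fin 2 → K := fun i => (b i : Fin 2 → K)
  have hexp : ∀ x : Λ, (x : Fin 2 → K) = ∑ i, (b.repr x i) • v i := by
    intro x
    have h1 := congrArg (Λ.subtype) (b.sum_repr x)
    rw [map_sum] at h1
    simp only [map_smul, Submodule.subtype_apply] at h1
    exact h1.symm
  have hli : LinearIndependent K v := by
    rw [← LinearIndependent.iff_fractionRing O K]
    exact b.linearIndependent.map' Λ.subtype (Submodule.ker_subtype _)
  have hΛle : ∀ x ∈ Λ, x ∈ Submodule.span K (Set.range v) := by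
    intro x hx
    have h1 := hexp ⟨x, hx⟩
    change x = _ at h1
    rw [h1]
    refine Submodule.sum_mem _ fun i _ => ?_
    exact Submodule.smul_of_tower_mem _ _ (Submodule.subset_span ⟨i, rfl⟩)
  have hsp : ⊤ ≤ Submodule.span K (Set.range v) := by
    rw [← (Pi.basisFun K (Fin 2)).span_eq]
    refine Submodule.span_le.mpr ?_
    rintro _ ⟨j, rfl⟩
    exact hΛle _ (hstd j)
  let B : Module.Basis (Fin n) K (Fin 2 → K) := Module.Basis.mk hli hsp
  have hn : n = 2 := by
    have h1 := Module.finrank_eq_card_basis B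
    rw [Module.finrank_fin_fun, Fintype.card_fin] at h1
    exact h1.symm
  subst hn
  let e := Pi.basisFun K (Fin 2)
  let P : GL (Fin 2) K :=
    ⟨e.toMatrix B, B.toMatrix e, by rw [Module.Basis.toMatrix_mul_toMatrix_flip],
      by rw [Module.Basis.toMatrix_mul_toMatrix_flip]⟩
  have hPapp : ∀ i j, (P : Matrix (Fin 2) (Fin 2) K) i j = v j i := by
    intro i j
    change e.toMatrix B i j = v j i
    simp [Module.Basis.toMatrix_apply, e, B]
  -- the integral matrices
  let A : G → Matrix (Fin 2) (Fin 2) O := fun g i j =>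
    b.repr ⟨(ρ g) *ᵥ v j, hstab g _ (b j).2⟩ i
  have hA : ∀ g, ρ g * (P : Matrix (Fin 2) (Fin 2) K) =
      (P : Matrix (Fin 2) (Fin 2) K) * (A g).map (algebraMap O K) := by
    intro g
    ext i j
    have h1 := congrFun (hexp ⟨(ρ g) *ᵥ v j, hstab g _ (b j).2⟩) i
    simp only [Matrix.mul_apply, hPapp, Matrix.map_apply]
    simp only [Matrix.mulVec, dotProduct, Finset.sum_apply, Pi.smul_apply,
      Algebra.smul_def] at h1
    rw [h1]
    exact Finset.sum_congr rfl fun k _ => mul_comm _ _
  have hA' : ∀ g, (A g).map (algebraMap O K) =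
      (↑P⁻¹ : Matrix (Fin 2) (Fin 2) K) * ρ g * (↑P : Matrix (Fin 2) (Fin 2) K) := by
    intro g
    rw [mul_assoc, hA, ← mul_assoc, ← Units.val_mul, inv_mul_cancel, Units.val_one, one_mul]
  have hmapinj : Function.Injective
      (fun M : Matrix (Fin 2) (Fin 2) O => M.map (algebraMap O K)) :=
    Matrix.map_injective hinj
  refine ⟨P, ⟨⟨A, ?_⟩, ?_⟩, hA'⟩
  · apply hmapinj
    change (A 1).map (algebraMap O K) = (1 : Matrix (Fin 2) (Fin 2) O).map (algebraMap O K)
    rw [hA', map_one, mul_one, ← Units.val_mul, inv_mul_cancel, Units.val_one,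
      Matrix.map_one _ (map_zero _) (map_one _)]
  · intro g g'
    apply hmapinj
    change (A (g * g')).map (algebraMap O K) = (A g * A g').map (algebraMap O K)
    rw [Matrix.map_mul, hA', hA', hA', map_mul]
    have hPP : (↑P : Matrix (Fin 2) (Fin 2) K) * (↑P⁻¹ : Matrix (Fin 2) (Fin 2) K) = 1 := by
      rw [← Units.val_mul, mul_inv_cancel, Units.val_one]
    calc (↑P⁻¹ : Matrix (Fin 2) (Fin 2) K) * (ρ g * ρ g') * ↑P
        = ↑P⁻¹ * ρ g * 1 * ρ g' * ↑P := by simp only [mul_one, mul_assoc]
      _ = ↑P⁻¹ * ρ g * ↑P * (↑P⁻¹ * ρ g' * ↑P) := by rw [← hPP]; simp only [mul_assoc]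

end Fermat.Agent.GAL.PC
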