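import Fermat.Agent.GAL.PC.AdicDefs
import Fermat.Agent.GAL.PC.PseudoRep
import Fermat.Agent.GAL.PC.Lattice

/-!
# From an adic pseudo-character over a DVR to a matrix representation (project GAL/PC, S30B)
-/

set_option autoImplicit false

namespace Fermat.Agent.GAL.PC

local notation "Qbar" => AlgebraicClosure ℚ
local notation "GQ" => (AlgebraicClosure ℚ ≃ₐ[ℚ] AlgebraicClosure ℚ)

open MonoidAlgebra

section entries

variable {O K : Type*} [CommRing O] [IsDomain O] [Field K] [Algebra O K] [IsFractionRing O K]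
  {G : Type*} [Group G]

/-- bounded denominators of `g ↦ t (g z)` -/
theorem exists_denom (t : G → O) (z : MonoidAlgebra K G) :
    ∃ d : O, d ≠ 0 ∧ ∀ g, ∃ y : O, algebraMap O K y =
      algebraMap O K d * tl (fun g => algebraMap O K (t g)) (MonoidAlgebra.of K G g * z) := by
  induction z using MonoidAlgebra.induction_on with
  | of b =>
    refine ⟨1, one_ne_zero, fun g => ⟨t (g * b), ?_⟩⟩
    rw [← map_mul, tl_of, map_one, one_mul]
  | add z z' hz hz' =>
    obtain ⟨d, hd, h⟩ := hz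
    obtain ⟨d', hd', h'⟩ := hz'
    refine ⟨d * d', mul_ne_zero hd hd', fun g => ?_⟩
    obtain ⟨y, hy⟩ := h g
    obtain ⟨y', hy'⟩ := h' g
    refine ⟨d' * y + d * y', ?_⟩
    rw [mul_add, map_add, map_add, map_mul, map_mul, map_mul, hy, hy']
    ring
  | smul r z hz =>
    obtain ⟨d, hd, h⟩ := hz
    obtain ⟨x, y, hy0, rfl⟩ := IsFractionRing.div_surjective (A := O) r
    have hy0' : y ≠ 0 := nonZeroDivisors.ne_zero hy0
    have hyK : algebraMap O K y ≠ 0 := by
      rw [Ne, map_eq_zero_iff _ (IsFractionRing.injective O K)]; exact hy0'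
    refine ⟨d * y, mul_ne_zero hd hy0', fun g => ?_⟩
    obtain ⟨w, hw⟩ := h g
    refine ⟨x * w, ?_⟩
    rw [mul_smul_comm, map_smul, smul_eq_mul, map_mul, map_mul, hw]
    field_simp

/-- invariance of `g ↦ t (g z)` -/
theorem tl_of_mul_right_invariant (t : G → O) (hcomm : ∀ σ τ, t (σ * τ) = t (τ * σ)) {τ : G}
    (hτ : ∀ σ, t (σ * τ) = t σ) (z : MonoidAlgebra K G) (g : G) :
    tl (fun g => algebraMap O K (t g)) (MonoidAlgebra.of K G (g * τ) * z)
      = tl (fun g => algebraMap O K (t g)) (MonoidAlgebra.of K G g * z) := by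
  induction z using MonoidAlgebra.induction_on with
  | of b =>
    rw [← map_mul, ← map_mul, tl_of, tl_of, hcomm, ← mul_assoc, hτ, hcomm]
  | add z z' hz hz' => rw [mul_add, mul_add, map_add, map_add, hz, hz']
  | smul r z hz => rw [mul_smul_comm, mul_smul_comm, map_smul, map_smul, hz]

end entries

section cont

variable {O K : Type*} [CommRing O] [IsDomain O] [Field K] [Algebra O K] [IsFractionRing O K]

/-- continuity of `g ↦ t (g z)` -/
theorem exists_level_entry (t : GQ → O) (hcomm : ∀ σ τ, t (σ * τ) = t (τ * σ))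
    (hcont : ∀ e : O, e ≠ 0 → ∃ L : IntermediateField ℚ Qbar, FiniteDimensional ℚ L ∧
      ∀ τ : GQ, (∀ x ∈ L, τ x = x) → ∀ σ : GQ, ∃ y : O, t (σ * τ) - t σ = e * y)
    (z : MonoidAlgebra K GQ) :
    ∀ e : O, e ≠ 0 → ∃ L : IntermediateField ℚ Qbar, FiniteDimensional ℚ L ∧
      ∀ τ : GQ, (∀ x ∈ L, τ x = x) → ∀ g : GQ, ∃ y : O,
        tl (fun g => algebraMap O K (t g)) (MonoidAlgebra.of K GQ (g * τ) * z)
          - tl (fun g => algebraMap O K (t g)) (MonoidAlgebra.of K GQ g * z)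
          = algebraMap O K (e * y) := by
  induction z using MonoidAlgebra.induction_on with
  | of b =>
    intro e he
    obtain ⟨L, hL, h⟩ := hcont e he
    refine ⟨L, hL, fun τ hτ g => ?_⟩
    obtain ⟨y, hy⟩ := h τ hτ (b * g)
    refine ⟨y, ?_⟩
    rw [← map_mul, ← map_mul, tl_of, tl_of, ← map_sub, ← hy, hcomm (g * τ) b, hcomm g b, mul_assoc]
  | add z z' hz hz' =>
    intro e he
    obtain ⟨L, hL, h⟩ := hz e he
    obtain ⟨L', hL', h'⟩ := hz' e he
    refine ⟨L ⊔ L', IntermediateField.finiteDimensional_sup L L', fun τ hτ g => ?_⟩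
    obtain ⟨y, hy⟩ := h τ (fun x hx => hτ x ((le_sup_left : L ≤ L ⊔ L') hx)) g
    obtain ⟨y', hy'⟩ := h' τ (fun x hx => hτ x ((le_sup_right : L' ≤ L ⊔ L') hx)) g
    refine ⟨y + y', ?_⟩
    rw [mul_add, mul_add, map_add, map_add, mul_add, map_add, ← hy, ← hy']
    ring
  | smul r z hz =>
    intro e he
    obtain ⟨x, y, hy0, rfl⟩ := IsFractionRing.div_surjective (A := O) r
    have hy0' : y ≠ 0 := nonZeroDivisors.ne_zero hy0
    have hyK : algebraMap O K y ≠ 0 := by
      rw [Ne, map_eq_zero_iff _ (IsFractionRing.injective O K)]; exact hy0'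
    obtain ⟨L, hL, h⟩ := hz (e * y) (mul_ne_zero he hy0')
    refine ⟨L, hL, fun τ hτ g => ?_⟩
    obtain ⟨w, hw⟩ := h τ hτ g
    refine ⟨x * w, ?_⟩
    rw [mul_smul_comm, mul_smul_comm, map_smul, map_smul, ← smul_sub, hw, smul_eq_mul]
    simp only [map_mul]
    field_simp

end cont

/-- common denominator of a `2 × 2` matrix -/
theorem exists_matrix_denom {O K : Type*} [CommRing O] [IsDomain O] [Field K] [Algebra O K]
    [IsFractionRing O K] (P : Matrix (Fin 2) (Fin 2) K) :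
    ∃ D : O, D ≠ 0 ∧ ∀ i j, ∃ y : O, algebraMap O K y = algebraMap O K D * P i j := by
  obtain ⟨b, hb⟩ := IsLocalization.exist_integer_multiples_of_finite (nonZeroDivisors O)
    (fun ij : Fin 2 × Fin 2 => P ij.1 ij.2)
  refine ⟨b, nonZeroDivisors.ne_zero b.2, fun i j => ?_⟩
  obtain ⟨y, hy⟩ := hb (i, j)
  exact ⟨y, by rw [hy, Algebra.smul_def]⟩

theorem field_identity {K : Type*} [Field K] {D' D : K} (hD' : D' ≠ 0) (hD : D ≠ 0)
    (a0 a1 p w00 w10 w01 w11 b0 b1 : K) :
    (a0 / D' * (D' * D * p * w00) + a1 / D' * (D' * D * p * w10)) * (b0 / D)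
      + (a0 / D' * (D' * D * p * w01) + a1 / D' * (D' * D * p * w11)) * (b1 / D)
    = p * (a0 * w00 * b0 + a0 * w01 * b1 + (a1 * w10 * b0 + a1 * w11 * b1)) := by
  field_simp
  ring

theorem exists_matrix_rep {O : Type*} [CommRing O] [IsDomain O] [IsDiscreteValuationRing O]
    [CharZero O] {S U : Set ℕ} {a : ℕ → O} {t : GQ → O} {c : GQ →* O}
    (h : IsAdicPC (IsLocalRing.maximalIdeal O) S U a t c) :
    ∃ ρ : GQ →* Matrix (Fin 2) (Fin 2) O,
      (∀ σ, (ρ σ).trace = t σ) ∧ (∀ σ, (ρ σ).det = c σ) ∧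
      (∀ τ : GQ, (∀ σ, t (σ * τ) = t σ) → ρ τ = 1) ∧
      ∀ n : ℕ, ∃ L : IntermediateField ℚ Qbar, FiniteDimensional ℚ L ∧
        ∀ τ : GQ, (∀ x ∈ L, τ x = x) → ∀ i j, (ρ τ - 1) i j ∈ IsLocalRing.maximalIdeal O ^ n := by
  classical
  let K := FractionRing O
  have hinj : Function.Injective (algebraMap O K) := IsFractionRing.injective O K
  have : CharZero K := charZero_of_injective_algebraMap hinj
  set tK : GQ → K := fun g => algebraMap O K (t g) with htK
  set cK : GQ →* K := ((algebraMap O K : O →+* K) : O →* K).comp c with hcK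
  have hps : IsPseudo tK cK :=
    { one := by simp only [htK, h.one]; exact map_ofNat _ 2
      mul := fun σ τ => by
        simp only [htK, hcK, MonoidHom.comp_apply, MonoidHom.coe_coe]
        rw [← map_mul, h.mul, map_add, map_mul]
      comm := fun σ τ => by simp only [htK, h.comm σ τ] }
  have h2 : (2 : K) ≠ 0 := two_ne_zero
  have hcc : cK complexConjugation = -1 := by
    simp only [hcK, MonoidHom.comp_apply, MonoidHom.coe_coe, h.conj, map_neg, map_one]
  obtain ⟨ρ, z, htr, hdet, hent⟩ := exists_rep hps h2 complexConjugation_mul_self hcc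
  -- uniformiser
  obtain ⟨ϖ, hϖ⟩ := IsDiscreteValuationRing.exists_irreducible O
  have hmax : ∀ n : ℕ, IsLocalRing.maximalIdeal O ^ n = Ideal.span {ϖ ^ n} := by
    intro n
    rw [hϖ.maximalIdeal_eq, Ideal.span_singleton_pow]
  have hcont : ∀ e : O, e ≠ 0 → ∃ L : IntermediateField ℚ Qbar, FiniteDimensional ℚ L ∧
      ∀ τ : GQ, (∀ x ∈ L, τ x = x) → ∀ σ : GQ, ∃ y : O, t (σ * τ) - t σ = e * y := by
    intro e he
    obtain ⟨n, hn⟩ := IsDiscreteValuationRing.associated_pow_irreducible he hϖ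
    obtain ⟨L, hL, hLt⟩ := h.cont n
    refine ⟨L, hL, fun τ hτ σ => ?_⟩
    have h1 := hLt τ hτ σ
    rw [hmax, ← Ideal.span_singleton_eq_span_singleton.mpr hn, Ideal.mem_span_singleton] at h1
    exact h1
  -- bounded denominators
  choose d hd0 hd using fun ij : Fin 2 × Fin 2 => exists_denom (K := K) t (z ij.1 ij.2)
  have hbound : ∀ g i j, ∃ y : O, algebraMap O K y
      = algebraMap O K (∏ ij : Fin 2 × Fin 2, d ij) * ρ g i j := by
    intro g i j
    obtain ⟨y, hy⟩ := hd (i, j) g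
    refine ⟨(∏ ij ∈ Finset.univ.erase (i, j), d ij) * y, ?_⟩
    rw [← Finset.mul_prod_erase Finset.univ d (Finset.mem_univ (i, j)), map_mul, map_mul, hy, hent]
    ring
  obtain ⟨P, ρ', hρ'⟩ := exists_integral_conj ρ (∏ ij : Fin 2 × Fin 2, d ij)
    (Finset.prod_ne_zero_iff.mpr fun ij _ => hd0 ij) hbound
  have hPP : (↑P⁻¹ : Matrix (Fin 2) (Fin 2) K) * (↑P : Matrix (Fin 2) (Fin 2) K) = 1 := by
    rw [← Matrix.GeneralLinearGroup.coe_mul, inv_mul_cancel, Matrix.GeneralLinearGroup.coe_one]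
  have hPP' : (↑P : Matrix (Fin 2) (Fin 2) K) * (↑P⁻¹ : Matrix (Fin 2) (Fin 2) K) = 1 := by
    rw [← Matrix.GeneralLinearGroup.coe_mul, mul_inv_cancel, Matrix.GeneralLinearGroup.coe_one]
  have hmapinj : Function.Injective
      (fun A : Matrix (Fin 2) (Fin 2) O => A.map (algebraMap O K)) :=
    Matrix.map_injective hinj
  refine ⟨ρ', fun σ => ?_, fun σ => ?_, fun τ hτ => ?_, fun n => ?_⟩
  · apply hinj
    have h1 : algebraMap O K (ρ' σ).trace = ((ρ' σ).map (algebraMap O K)).trace := by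
      simp [Matrix.trace]
    rw [h1, hρ', Matrix.trace_mul_comm, ← mul_assoc, hPP', one_mul, htr]
  · apply hinj
    have h1 : algebraMap O K (ρ' σ).det = ((ρ' σ).map (algebraMap O K)).det :=
      RingHom.map_det _ _
    rw [h1, hρ', Matrix.det_mul, Matrix.det_mul, mul_right_comm, ← Matrix.det_mul, hPP,
      Matrix.det_one, one_mul, hdet]
    rfl
  · apply hmapinj
    show (ρ' τ).map (algebraMap O K) = (1 : Matrix (Fin 2) (Fin 2) O).map (algebraMap O K)
    have h1 : ρ τ = 1 := by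
      rw [← map_one ρ]
      ext i j
      rw [hent, hent]
      have := tl_of_mul_right_invariant (K := K) t h.comm hτ (z i j) 1
      rwa [one_mul] at this
    rw [hρ', h1, mul_one, hPP, Matrix.map_one _ (map_zero _) (map_one _)]
  · obtain ⟨D, hD0, hD⟩ := exists_matrix_denom (O := O) (↑P : Matrix (Fin 2) (Fin 2) K)
    obtain ⟨D', hD'0, hD'⟩ := exists_matrix_denom (O := O) (↑P⁻¹ : Matrix (Fin 2) (Fin 2) K)
    have he : D' * D * ϖ ^ n ≠ 0 := mul_ne_zero (mul_ne_zero hD'0 hD0) (pow_ne_zero _ hϖ.ne_zero)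
    choose L hL hLt using fun ij : Fin 2 × Fin 2 =>
      exists_level_entry (K := K) t h.comm hcont (z ij.1 ij.2) _ he
    refine ⟨⨆ ij, L ij, IntermediateField.finiteDimensional_iSup_of_finite, fun τ hτ i j => ?_⟩
    have hent' : ∀ k l, ∃ y : O, (ρ τ - 1) k l = algebraMap O K (D' * D * ϖ ^ n * y) := by
      intro k l
      obtain ⟨y, hy⟩ := hLt (k, l) τ (fun x hx => hτ x ((le_iSup L (k, l)) hx)) 1
      refine ⟨y, ?_⟩
      rw [← hy, one_mul, ← hent, ← hent, map_one, Matrix.sub_apply]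
    choose w hw using hent'
    choose q hq using hD
    choose q' hq' using hD'
    have hDK : algebraMap O K D ≠ 0 := by rw [Ne, map_eq_zero_iff _ hinj]; exact hD0
    have hD'K : algebraMap O K D' ≠ 0 := by rw [Ne, map_eq_zero_iff _ hinj]; exact hD'0
    rw [hmax, Ideal.mem_span_singleton]
    refine ⟨∑ k, ∑ l, q' i k * w k l * q l j, ?_⟩
    apply hinj
    have h1 : algebraMap O K ((ρ' τ - 1) i j)
        = ((↑P⁻¹ : Matrix (Fin 2) (Fin 2) K) * (ρ τ - 1) * (↑P : Matrix (Fin 2) (Fin 2) K)) i j := by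
      rw [mul_sub, sub_mul, mul_one, hPP, ← hρ']
      simp [Matrix.sub_apply, Matrix.one_apply, apply_ite (algebraMap O K)]
    rw [h1]
    simp only [Matrix.mul_apply, Fin.sum_univ_two, hw, map_mul, map_add, map_pow]
    have e1 : ∀ k, (↑P⁻¹ : Matrix (Fin 2) (Fin 2) K) i k = algebraMap O K (q' i k) / algebraMap O K D' :=
      fun k => by rw [hq', mul_div_cancel_left₀ _ hD'K]
    have e2 : ∀ l, (↑P : Matrix (Fin 2) (Fin 2) K) l j = algebraMap O K (q l j) / algebraMap O K D :=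
      fun l => by rw [hq, mul_div_cancel_left₀ _ hDK]
    rw [e1, e1, e2, e2]
    exact field_identity hD'K hDK _ _ _ _ _ _ _ _ _

end Fermat.Agent.GAL.PC
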