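import Fermat.Agent.GAL.PC.Defs
import Fermat.Agent.Cheb.Spec
import Fermat.Agent.GAL.Lucas

/-!
# Pseudo-characters of `G_ℚ` (project GAL/PC): uniqueness

A character / pseudo-character of finite level is determined by its values at Frobenius lifts
(generator-Chebotarev + Lucas sequences).
-/

set_option autoImplicit false

namespace Fermat.Agent.GAL.PC

local notation "Qbar" => AlgebraicClosure ℚ
local notation "GQ" => (AlgebraicClosure ℚ ≃ₐ[ℚ] AlgebraicClosure ℚ)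

/-- Chebotarev in the form used here: modulo a finite level, every `σ` is a power of a Frobenius
lift at a prime outside `S`. -/
theorem exists_frob_pow_mul (hC : Fermat.Agent.Cheb.PreludeSpec) (S : Finset ℕ)
    (L : IntermediateField ℚ Qbar) (hL : FiniteDimensional ℚ L) (σ : GQ) :
    ∃ (ℓ : ℕ) (A : ValuationSubring Qbar) (τ η : GQ) (n : ℕ), ℓ.Prime ∧ ℓ ∉ (↑S : Set ℕ) ∧
      A.LiesOverPrime ℓ ∧ A.IsFrobeniusAt τ ℓ ∧ (∀ x ∈ L, η x = x) ∧ σ = τ ^ n * η := by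
  obtain ⟨ℓ, A, τ, a, b, hℓ, hS, hA, hτ, -, h1, -⟩ := hC L hL σ S
  refine ⟨ℓ, A, τ, (τ ^ a)⁻¹ * σ, a, hℓ, by simpa using hS, hA, hτ, fun x hx => ?_, by group⟩
  rw [AlgEquiv.mul_apply, ← h1 x hx]
  change ((τ ^ a)⁻¹ * τ ^ a) x = x
  rw [inv_mul_cancel]
  rfl

theorem IsCyc.unique (hC : Fermat.Agent.Cheb.PreludeSpec) {R : Type*} [CommRing R] {S : Finset ℕ}
    {c c' : GQ →* R} (h : IsCyc (↑S : Set ℕ) c) (h' : IsCyc (↑S : Set ℕ) c') : c = c' := by
  obtain ⟨L, hL, h1⟩ := h.lvl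
  obtain ⟨L', hL', h1'⟩ := h'.lvl
  ext σ
  have hfd : FiniteDimensional ℚ (L ⊔ L' : IntermediateField ℚ Qbar) :=
    IntermediateField.finiteDimensional_sup L L'
  obtain ⟨ℓ, A, τ, η, n, hℓ, hS, hA, hτ, hη, rfl⟩ := exists_frob_pow_mul hC S (L ⊔ L') hfd σ
  rw [map_mul, map_mul, map_pow, map_pow, h.frob ℓ hℓ hS A hA τ hτ, h'.frob ℓ hℓ hS A hA τ hτ,
    h1 η (fun x hx => hη x ((le_sup_left : L ≤ L ⊔ L') hx)),
    h1' η (fun x hx => hη x ((le_sup_right : L' ≤ L ⊔ L') hx))]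

/-- the values of a pseudo-character on powers are given by the Lucas sequence -/
theorem IsPrePC.apply_pow {R : Type*} [CommRing R] {S : Set ℕ} {a : ℕ → R} {t : GQ → R}
    {c : GQ →* R} (h : IsPrePC S a t c) (τ : GQ) (n : ℕ) :
    t (τ ^ n) = lucasV (t τ) (c τ) n := by
  induction n using Nat.strong_induction_on with
  | _ n ih =>
    match n with
    | 0 => rw [pow_zero, h.one, lucasV]
    | 1 => rw [pow_one, lucasV]
    | (m + 2) =>
      have h1 := h.mul (τ ^ (m + 1)) τ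
      have e1 : τ ^ (m + 1) * τ⁻¹ = τ ^ m := by rw [pow_succ, mul_inv_cancel_right]
      rw [← pow_succ, e1, ih (m + 1) (by omega), ih m (by omega)] at h1
      rw [lucasV, mul_comm (t τ), h1]
      ring

theorem IsPrePC.unique (hC : Fermat.Agent.Cheb.PreludeSpec) {R : Type*} [CommRing R]
    {S : Finset ℕ} {a : ℕ → R} {t t' : GQ → R} {c c' : GQ →* R}
    (h : IsPrePC (↑S : Set ℕ) a t c) (h' : IsPrePC (↑S : Set ℕ) a t' c') : t = t' := by
  obtain ⟨L, hL, h1⟩ := h.lvl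
  obtain ⟨L', hL', h1'⟩ := h'.lvl
  ext σ
  have hfd : FiniteDimensional ℚ (L ⊔ L' : IntermediateField ℚ Qbar) :=
    IntermediateField.finiteDimensional_sup L L'
  obtain ⟨ℓ, A, τ, η, n, hℓ, hS, hA, hτ, hη, rfl⟩ := exists_frob_pow_mul hC S (L ⊔ L') hfd σ
  rw [h1 η (fun x hx => hη x ((le_sup_left : L ≤ L ⊔ L') hx)),
    h1' η (fun x hx => hη x ((le_sup_right : L' ≤ L ⊔ L') hx)), h.apply_pow, h'.apply_pow,
    h.frob ℓ hℓ hS A hA τ hτ, h'.frob ℓ hℓ hS A hA τ hτ, h.cyc.frob ℓ hℓ hS A hA τ hτ,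
    h'.cyc.frob ℓ hℓ hS A hA τ hτ]

end Fermat.Agent.GAL.PC
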