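import Fermat.Agent.GAL.PC.Defs
import Fermat.Agent.GAL.PC.Uniq

/-!
# Limits of pseudo-characters modulo `I ^ n` (project GAL/PC)
-/

set_option autoImplicit false

namespace Fermat.Agent.GAL.PC

local notation "Qbar" => AlgebraicClosure ℚ
local notation "GQ" => (AlgebraicClosure ℚ ≃ₐ[ℚ] AlgebraicClosure ℚ)

/-- a compatible family of classes modulo `I ^ n` comes from an element of the complete ring. -/
theorem exists_mk_eq_of_compatible {R : Type*} [CommRing R] (I : Ideal R) [IsAdicComplete I R]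
    (x : ∀ n : ℕ, R ⧸ I ^ n)
    (hx : ∀ (m n : ℕ) (hmn : m ≤ n),
      Ideal.Quotient.factor (Ideal.pow_le_pow_right hmn) (x n) = x m) :
    ∃ L : R, ∀ n, Ideal.Quotient.mk (I ^ n) L = x n := by
  choose y hy using fun n => Ideal.Quotient.mk_surjective (x n)
  obtain ⟨L, hL⟩ := IsPrecomplete.prec' (I := I) (M := R) y (by
    intro m n hmn
    rw [SModEq.sub_mem, smul_eq_mul, Ideal.mul_top, ← Ideal.Quotient.eq, hy m, ← hx m n hmn,
      ← hy n, Ideal.Quotient.factor_mk])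
  refine ⟨L, fun n => ?_⟩
  have := hL n
  rw [SModEq.sub_mem, smul_eq_mul, Ideal.mul_top, ← Ideal.Quotient.eq, hy n] at this
  exact this.symm

theorem eq_of_forall_mk_eq {R : Type*} [CommRing R] (I : Ideal R) [IsHausdorff I R] {x y : R}
    (h : ∀ n, Ideal.Quotient.mk (I ^ n) x = Ideal.Quotient.mk (I ^ n) y) : x = y := by
  rw [← sub_eq_zero]
  refine IsHausdorff.haus' (I := I) _ fun n => ?_
  rw [SModEq.sub_mem, smul_eq_mul, Ideal.mul_top, sub_zero, ← Ideal.Quotient.eq]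
  exact h n

theorem exists_limit (hC : Fermat.Agent.Cheb.PreludeSpec) {R : Type*} [CommRing R] (I : Ideal R)
    [IsAdicComplete I R] (S : Finset ℕ) (a : ℕ → R)
    (h : ∀ n : ℕ, ∃ (t : GQ → R ⧸ I ^ n) (c : GQ →* R ⧸ I ^ n),
      IsPC (↑S : Set ℕ) (fun ℓ => Ideal.Quotient.mk (I ^ n) (a ℓ)) t c) :
    ∃ (t : GQ → R) (c : GQ →* R), ∀ n : ℕ,
      IsPC (↑S : Set ℕ) (fun ℓ => Ideal.Quotient.mk (I ^ n) (a ℓ))
        (fun σ => Ideal.Quotient.mk (I ^ n) (t σ))
        (((Ideal.Quotient.mk (I ^ n) : R →+* _) : R →* _).comp c) := by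
  choose t c htc using h
  have key : ∀ (m n : ℕ) (hmn : m ≤ n),
      IsPC (↑S : Set ℕ) (fun ℓ => Ideal.Quotient.mk (I ^ m) (a ℓ))
        (fun σ => Ideal.Quotient.factor (Ideal.pow_le_pow_right hmn) (t n σ))
        (((Ideal.Quotient.factor (Ideal.pow_le_pow_right hmn) : R ⧸ I ^ n →+* R ⧸ I ^ m) :
          R ⧸ I ^ n →* R ⧸ I ^ m).comp (c n)) := by
    intro m n hmn
    have := (htc n).map (Ideal.Quotient.factor (Ideal.pow_le_pow_right hmn) :
      R ⧸ I ^ n →+* R ⧸ I ^ m)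
    simpa only [Ideal.Quotient.factor_mk] using this
  have ht : ∀ (m n : ℕ) (hmn : m ≤ n) (σ : GQ),
      Ideal.Quotient.factor (Ideal.pow_le_pow_right hmn) (t n σ) = t m σ := fun m n hmn σ =>
    congrFun (IsPrePC.unique hC (key m n hmn).toIsPrePC (htc m).toIsPrePC) σ
  have hc : ∀ (m n : ℕ) (hmn : m ≤ n) (σ : GQ),
      Ideal.Quotient.factor (Ideal.pow_le_pow_right hmn) (c n σ) = c m σ := fun m n hmn σ =>
    DFunLike.congr_fun (IsCyc.unique hC (key m n hmn).cyc (htc m).cyc) σ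
  choose t' ht' using fun σ => exists_mk_eq_of_compatible I (fun n => t n σ)
    (fun m n hmn => ht m n hmn σ)
  choose c' hc' using fun σ => exists_mk_eq_of_compatible I (fun n => c n σ)
    (fun m n hmn => hc m n hmn σ)
  refine ⟨t', ⟨⟨c', ?_⟩, ?_⟩, fun n => ?_⟩
  · exact eq_of_forall_mk_eq I fun n => by rw [hc', map_one, map_one]
  · intro σ τ
    exact eq_of_forall_mk_eq I fun n => by rw [map_mul, hc', hc', hc', map_mul]
  · have e1 : (fun σ => Ideal.Quotient.mk (I ^ n) (t' σ)) = t n := funext fun σ => ht' σ n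
    have e2 : (((Ideal.Quotient.mk (I ^ n) : R →+* _) : R →* _).comp
        (⟨⟨c', eq_of_forall_mk_eq I fun n => by rw [hc', map_one, map_one]⟩, fun σ τ =>
          eq_of_forall_mk_eq I fun n => by rw [map_mul, hc', hc', hc', map_mul]⟩ : GQ →* R)) =
        c n := MonoidHom.ext fun σ => hc' σ n
    rw [e1, e2]
    exact htc n

end Fermat.Agent.GAL.PC
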