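import Fermat.Agent.GAL.PC.Defs

/-!
# The trace of a two-dimensional adic representation is a pseudo-character (project GAL/PC)
-/

set_option autoImplicit false

namespace Fermat.Agent.GAL.PC

open Polynomial

local notation "Qbar" => AlgebraicClosure ℚ
local notation "GQ" => (AlgebraicClosure ℚ ≃ₐ[ℚ] AlgebraicClosure ℚ)

/-- `tr A tr B = tr (A B) + det B tr (A B⁻¹)` for `2 × 2` matrices. -/
theorem trace_mul_trace_fin_two {T : Type*} [CommRing T] (A B B' : Matrix (Fin 2) (Fin 2) T)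
    (hB : B * B' = 1) :
    A.trace * B.trace = (A * B).trace + B.det * (A * B').trace := by
  have h1 : B.det • B' = B.adjugate := by
    have : B.adjugate * (B * B') = B.det • B' := by
      rw [← mul_assoc, Matrix.adjugate_mul, Matrix.smul_mul, one_mul]
    rw [← this, hB, mul_one]
  have h2 : B.det * (A * B').trace = (A * B.adjugate).trace := by
    rw [← h1, Matrix.mul_smul, Matrix.trace_smul, smul_eq_mul]
  rw [h2, Matrix.adjugate_fin_two]
  simp only [Matrix.trace_fin_two, Matrix.mul_apply, Fin.sum_univ_two, Matrix.of_apply,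
    Matrix.cons_val', Matrix.cons_val_zero, Matrix.cons_val_one, Matrix.cons_val_fin_one]
  ring

theorem repr_mem_of_mem_smul_top {T V ι : Type*} [CommRing T] [AddCommGroup V] [Module T V]
    (b : Module.Basis ι T V) (I : Ideal T) {x : V} (hx : x ∈ I • (⊤ : Submodule T V)) (i : ι) :
    b.repr x i ∈ I := by
  induction hx using Submodule.smul_induction_on' with
  | smul r hr m _ =>
    rw [map_smul, Finsupp.smul_apply, smul_eq_mul]
    exact I.mul_mem_right _ hr
  | add x _ y _ hx hy =>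
    rw [map_add, Finsupp.add_apply]
    exact I.add_mem hx hy

theorem isPrePC_of_rep {T : Type} [CommRing T] [IsLocalRing T] (ρ : GaloisRepAdic T) (S : Set ℕ)
    (a : ℕ → T)
    (h : ∀ ℓ : ℕ, ℓ.Prime → ℓ ∉ S → ∀ A : ValuationSubring Qbar, A.LiesOverPrime ℓ →
      ∀ σ : GQ, A.IsFrobeniusAt σ ℓ →
        LinearMap.charpoly (ρ.ρ σ) = X ^ 2 - C (a ℓ) * X + C ((ℓ : T))) (n : ℕ) :
    IsPrePC S (fun ℓ => Ideal.Quotient.mk (IsLocalRing.maximalIdeal T ^ n) (a ℓ))
      (fun σ => Ideal.Quotient.mk (IsLocalRing.maximalIdeal T ^ n)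
        (LinearMap.trace T ρ.V (ρ.ρ σ)))
      (((Ideal.Quotient.mk (IsLocalRing.maximalIdeal T ^ n) : T →+* _) : T →* _).comp
        ((LinearMap.det : Module.End T ρ.V →* T).comp ρ.ρ)) := by
  set I := IsLocalRing.maximalIdeal T ^ n with hI
  let b : Module.Basis (Fin 2) T ρ.V := Module.finBasisOfFinrankEq T ρ.V ρ.finrank_eq
  let M : GQ → Matrix (Fin 2) (Fin 2) T := fun σ => LinearMap.toMatrix b b (ρ.ρ σ)
  have hMmul : ∀ σ τ, M (σ * τ) = M σ * M τ := fun σ τ => by
    simp only [M, map_mul, Module.End.mul_eq_comp, LinearMap.toMatrix_comp b b b]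
  have hMone : M 1 = 1 := by
    simp only [M, map_one, Module.End.one_eq_id, LinearMap.toMatrix_id]
  have htr : ∀ σ, LinearMap.trace T ρ.V (ρ.ρ σ) = (M σ).trace := fun σ =>
    LinearMap.trace_eq_matrix_trace T b _
  have hdet : ∀ σ, LinearMap.det (ρ.ρ σ) = (M σ).det := fun σ =>
    (LinearMap.det_toMatrix b _).symm
  have hchar : ∀ σ, LinearMap.charpoly (ρ.ρ σ) = (M σ).charpoly := fun σ =>
    (LinearMap.charpoly_toMatrix _ b).symm
  -- the level
  obtain ⟨L, hL, hcont⟩ := ρ.isAdicContinuous n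
  have hent : ∀ τ : GQ, (∀ x ∈ L, τ x = x) → ∀ i j,
      Ideal.Quotient.mk I (M τ i j) = Ideal.Quotient.mk I ((1 : Matrix (Fin 2) (Fin 2) T) i j) := by
    intro τ hτ i j
    rw [Ideal.Quotient.eq]
    have h1 := repr_mem_of_mem_smul_top b I (hcont τ hτ (b j)) i
    rw [map_sub, Finsupp.sub_apply, Module.Basis.repr_self] at h1
    have h2 : M τ i j = b.repr (ρ.ρ τ (b j)) i := LinearMap.toMatrix_apply b b _ i j
    rw [h2, Matrix.one_apply]
    convert h1 using 2
    rw [Finsupp.single_apply]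
    simp only [eq_comm]
  -- Frobenius
  have hfrob : ∀ ℓ : ℕ, ℓ.Prime → ℓ ∉ S → ∀ A : ValuationSubring Qbar, A.LiesOverPrime ℓ →
      ∀ σ : GQ, A.IsFrobeniusAt σ ℓ → (M σ).trace = a ℓ ∧ (M σ).det = ℓ := by
    intro ℓ hℓ hS A hA σ hσ
    have h1 := h ℓ hℓ hS A hA σ hσ
    rw [hchar, Matrix.charpoly_fin_two] at h1
    constructor
    · have := congrArg (fun P : T[X] => P.coeff 1) h1
      simp only [coeff_add, coeff_sub, coeff_X_pow, coeff_C_mul, coeff_X_one, coeff_C] at this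
      simpa using this
    · have := congrArg (fun P : T[X] => P.coeff 0) h1
      simp only [coeff_add, coeff_sub, coeff_X_pow, coeff_C_mul, coeff_X_zero, coeff_C] at this
      simpa using this
  refine ⟨⟨⟨L, hL, fun τ hτ => ?_⟩, fun ℓ hℓ hS A hA σ hσ => ?_⟩, ⟨L, hL, fun τ hτ σ => ?_⟩, ?_,
    fun σ τ => ?_, fun ℓ hℓ hS A hA σ hσ => ?_⟩
  · change Ideal.Quotient.mk I (LinearMap.det (ρ.ρ τ)) = 1
    rw [hdet, Matrix.det_fin_two, map_sub, map_mul, map_mul, hent τ hτ, hent τ hτ, hent τ hτ,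
      hent τ hτ]
    simp
  · change Ideal.Quotient.mk I (LinearMap.det (ρ.ρ σ)) = _
    rw [hdet, (hfrob ℓ hℓ hS A hA σ hσ).2, map_natCast]
  · change Ideal.Quotient.mk I (LinearMap.trace T ρ.V (ρ.ρ (σ * τ))) =
      Ideal.Quotient.mk I (LinearMap.trace T ρ.V (ρ.ρ σ))
    rw [htr, htr, hMmul, Matrix.trace_fin_two, Matrix.trace_fin_two]
    simp only [Matrix.mul_apply, Fin.sum_univ_two, map_add, map_mul, hent τ hτ]
    simp
  · change Ideal.Quotient.mk I (LinearMap.trace T ρ.V (ρ.ρ 1)) = 2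
    rw [htr, hMone, Matrix.trace_fin_two]
    simp
    norm_num
  · change Ideal.Quotient.mk I _ * Ideal.Quotient.mk I _ = Ideal.Quotient.mk I _ +
      Ideal.Quotient.mk I (LinearMap.det (ρ.ρ τ)) * Ideal.Quotient.mk I _
    have key := trace_mul_trace_fin_two (M σ) (M τ) (M τ⁻¹)
      (by rw [← hMmul, mul_inv_cancel, hMone])
    rw [htr, htr, htr, htr, hdet, hMmul, hMmul]
    have key2 := congrArg (Ideal.Quotient.mk I) key
    rwa [RingHom.map_mul, RingHom.map_add, RingHom.map_mul] at key2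
  · simp only [htr, (hfrob ℓ hℓ hS A hA σ hσ).1]

end Fermat.Agent.GAL.PC
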