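import Mathlib
import Fermat.Prelude.Def_GaloisRep_Adic

set_option autoImplicit false

/-!
# Trace rigidity for residually absolutely irreducible rank two representations

* `burnside_two` : Burnside's theorem in dimension two.
* `span_range_eq_top_of_absIrr` : for a residually absolutely irreducible `ρ : GaloisRepAdic T`
  the image of `ρ` spans `End_T V`.
* `eq_one_of_trace` / `eq_one_of_trace_adic` : an element `τ` with `tr ρ(σ τ) = tr ρ(σ)` for all
  `σ` acts trivially.
-/

namespace Fermat.Agent.GAL.PC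

open Module

section Burnside

variable {K V M : Type*} [Field K] [IsAlgClosed K] [AddCommGroup V] [Module K V] [Monoid M]

/-- Burnside's theorem in dimension two. -/
theorem burnside_two (hV : finrank K V = 2) (r : M →* Module.End K V)
    (hirr : ∀ W : Submodule K V, (∀ m, ∀ x ∈ W, r m x ∈ W) → W = ⊥ ∨ W = ⊤) :
    Submodule.span K (Set.range r) = ⊤ := by
  have : FiniteDimensional K V := Module.finite_of_finrank_eq_succ hV
  have : Nontrivial V := Module.nontrivial_of_finrank_pos (R := K) (by omega)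
  set 𝒜 : Submodule K (Module.End K V) := Submodule.span K (Set.range r) with h𝒜
  have hone : (1 : Module.End K V) ∈ 𝒜 := Submodule.subset_span ⟨1, map_one r⟩
  have hmul : ∀ a ∈ 𝒜, ∀ b ∈ 𝒜, a * b ∈ 𝒜 := by
    intro a ha b hb
    have h1 : a * b ∈ 𝒜 * 𝒜 := Submodule.mul_mem_mul ha hb
    have h2 : 𝒜 * 𝒜 ≤ 𝒜 := by
      rw [h𝒜, Submodule.span_mul_span]
      apply Submodule.span_mono
      rintro _ ⟨_, ⟨m, rfl⟩, _, ⟨m', rfl⟩, rfl⟩
      exact ⟨m * m', map_mul r m m'⟩
    exact h2 h1
  -- orbits of nonzero vectors are everything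
  have horb : ∀ v : V, v ≠ 0 → ∀ y : V, ∃ c ∈ 𝒜, c v = y := by
    intro v hv y
    let W : Submodule K V := 𝒜.map (LinearMap.applyₗ v)
    have hW : ∀ m, ∀ x ∈ W, r m x ∈ W := by
      rintro m _ ⟨c, hc, rfl⟩
      exact ⟨r m * c, hmul _ (Submodule.subset_span ⟨m, rfl⟩) _ hc, rfl⟩
    have hvW : v ∈ W := ⟨1, hone, rfl⟩
    rcases hirr W hW with h | h
    · rw [h] at hvW
      exact absurd ((Submodule.mem_bot K).mp hvW) hv
    · have : y ∈ W := h ▸ Submodule.mem_top
      obtain ⟨c, hc, rfl⟩ := this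
      exact ⟨c, hc, rfl⟩
  -- a non scalar element
  have hns : ∃ m, ∀ c : K, r m ≠ c • (1 : Module.End K V) := by
    by_contra hcon
    push Not at hcon
    obtain ⟨v, hv⟩ := exists_ne (0 : V)
    have hW : ∀ m, ∀ x ∈ (K ∙ v), r m x ∈ (K ∙ v) := by
      intro m x hx
      obtain ⟨c, hc⟩ := hcon m
      rw [hc]
      exact Submodule.smul_mem _ c hx
    rcases hirr _ hW with h | h
    · exact hv ((Submodule.span_singleton_eq_bot).mp h)
    · have h1 := finrank_span_singleton (K := K) hv
      rw [h, finrank_top, hV] at h1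
      omega
  obtain ⟨m, hm⟩ := hns
  obtain ⟨μ, hμ⟩ := Module.End.exists_eigenvalue (r m)
  obtain ⟨v, hv⟩ := hμ.exists_hasEigenvector
  set n : Module.End K V := r m - μ • (1 : Module.End K V) with hn
  have hn𝒜 : n ∈ 𝒜 :=
    Submodule.sub_mem _ (Submodule.subset_span ⟨m, rfl⟩) (Submodule.smul_mem _ _ hone)
  have hn0 : n ≠ 0 := fun h => hm μ (sub_eq_zero.mp h)
  have hnv : n v = 0 := by
    simp [hn, hv.apply_eq_smul]
  obtain ⟨x₀, hx₀⟩ : ∃ x₀, n x₀ ≠ 0 := by
    by_contra hcon
    push Not at hcon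
    exact hn0 (LinearMap.ext hcon)
  set w := n x₀ with hw
  have hker : 1 ≤ finrank K (LinearMap.ker n) := by
    rw [Submodule.one_le_finrank_iff]
    intro h
    have : v ∈ LinearMap.ker n := hnv
    rw [h] at this
    exact hv.2 ((Submodule.mem_bot K).mp this)
  have hran : 1 ≤ finrank K (LinearMap.range n) := by
    rw [Submodule.one_le_finrank_iff]
    intro h
    have : w ∈ LinearMap.range n := ⟨x₀, rfl⟩
    rw [h] at this
    exact hx₀ ((Submodule.mem_bot K).mp this)
  have hsum := LinearMap.finrank_range_add_finrank_ker n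
  rw [hV] at hsum
  have hker1 : finrank K (LinearMap.ker n) = 1 := by omega
  have hran1 : finrank K (LinearMap.range n) = 1 := by omega
  have hkerv : ∀ y, n y = 0 → ∃ s : K, s • v = y := by
    intro y hy
    obtain ⟨s, hs⟩ := (finrank_eq_one_iff_of_nonzero' (⟨v, hnv⟩ : LinearMap.ker n)
      (fun h => hv.2 (congrArg Subtype.val h))).mp hker1 ⟨y, hy⟩
    exact ⟨s, congrArg Subtype.val hs⟩
  have hranw : ∀ x, ∃ t : K, t • w = n x := by
    intro x
    obtain ⟨t, ht⟩ := (finrank_eq_one_iff_of_nonzero' (⟨w, ⟨x₀, rfl⟩⟩ : LinearMap.range n)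
      (fun h => hx₀ (congrArg Subtype.val h))).mp hran1 ⟨n x, ⟨x, rfl⟩⟩
    exact ⟨t, congrArg Subtype.val ht⟩
  have hx₀0 : x₀ ≠ 0 := by
    rintro h
    exact hx₀ (by rw [hw, h, map_zero])
  obtain ⟨b, hb, hbw⟩ := horb w hx₀ x₀
  set e : Module.End K V := b * n with he
  have he𝒜 : e ∈ 𝒜 := hmul _ hb _ hn𝒜
  rw [eq_top_iff]
  intro f _
  obtain ⟨c, hc, hcv⟩ := horb v hv.2 (f v)
  obtain ⟨c', hc', hcx⟩ := horb x₀ hx₀0 (f x₀)
  have hf : f = c * (1 - e) + c' * e := by
    ext x
    obtain ⟨t, ht⟩ := hranw x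
    have hex : e x = t • x₀ := by
      rw [he, Module.End.mul_apply, ← ht, map_smul, hbw]
    have hnx : n (x - e x) = 0 := by
      rw [map_sub, hex, map_smul, ← hw, ht, sub_self]
    obtain ⟨s, hs⟩ := hkerv _ hnx
    have h1 : (c * (1 - e)) x = f (x - e x) := by
      rw [Module.End.mul_apply, LinearMap.sub_apply, Module.End.one_apply, ← hs, map_smul, map_smul,
        hcv]
    have h2 : (c' * e) x = f (e x) := by
      rw [Module.End.mul_apply, hex, map_smul, map_smul, hcx]
    rw [LinearMap.add_apply, h1, h2, ← map_add, sub_add_cancel]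
  rw [hf]
  exact Submodule.add_mem _ (hmul _ hc _ (Submodule.sub_mem _ hone he𝒜)) (hmul _ hc' _ he𝒜)

end Burnside

section Nakayama

theorem span_range_equiv_comp {K E E' ι : Type*} [Semiring K] [AddCommMonoid E] [AddCommMonoid E']
    [Module K E] [Module K E'] (L : E ≃ₗ[K] E') (v : ι → E)
    (h : Submodule.span K (Set.range v) = ⊤) :
    Submodule.span K (Set.range fun i => L (v i)) = ⊤ := by
  have h1 := congrArg (Submodule.map L.toLinearMap) h
  rw [Submodule.map_span, Submodule.map_top, LinearEquiv.range, ← Set.range_comp] at h1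
  exact h1

/-- Nakayama for `2 × 2` matrices: a family of matrices over a local ring spans if its image over
a field (under a local homomorphism) spans. -/
theorem span_matrix_eq_top_of_map {T K : Type*} [CommRing T] [IsLocalRing T] [Field K]
    (φ : T →+* K) [IsLocalHom φ] {ι : Type*} (A : ι → Matrix (Fin 2) (Fin 2) T)
    (h : Submodule.span K (Set.range fun i => (A i).map φ) = ⊤) :
    Submodule.span T (Set.range A) = ⊤ := by
  classical
  let B₀ := Basis.ofSpan h.ge
  have : Fintype ((linearIndepOn_empty K id).extend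
      (Set.empty_subset (Set.range fun i => (A i).map φ))) :=
    FiniteDimensional.fintypeBasisIndex B₀
  have hcard : Fintype.card ((linearIndepOn_empty K id).extend
      (Set.empty_subset (Set.range fun i => (A i).map φ))) = Fintype.card (Fin 2 × Fin 2) := by
    rw [← finrank_eq_card_basis B₀, finrank_eq_card_basis (Matrix.stdBasis K (Fin 2) (Fin 2))]
  let B := B₀.reindex (Fintype.equivOfCardEq hcard)
  have hB : ∀ l, ∃ i, (A i).map φ = B l := by
    intro l
    have : B l ∈ Set.range fun i => (A i).map φ := by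
      apply Basis.ofSpan_subset h.ge
      rw [Basis.reindex_apply]
      exact ⟨_, rfl⟩
    exact this
  choose σ hσ using hB
  have h1 : IsUnit ((Matrix.stdBasis K (Fin 2) (Fin 2)).det B) :=
    (Basis.is_basis_iff_det _).mp ⟨B.linearIndependent, B.span_eq⟩
  have h2 : φ ((Matrix.stdBasis T (Fin 2) (Fin 2)).det (A ∘ σ)) =
      (Matrix.stdBasis K (Fin 2) (Fin 2)).det B := by
    rw [Basis.det_apply, Basis.det_apply, RingHom.map_det]
    congr 1
    ext ⟨i, j⟩ l
    rw [RingHom.mapMatrix_apply, Matrix.map_apply, Basis.toMatrix_apply, Basis.toMatrix_apply,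
      ← hσ l]
    simp [Matrix.stdBasis]
  have h3 : IsUnit ((Matrix.stdBasis T (Fin 2) (Fin 2)).det (A ∘ σ)) := by
    apply isUnit_of_map_unit φ
    rw [h2]
    exact h1
  have h4 := ((Basis.is_basis_iff_det _).mpr h3).2
  rw [eq_top_iff, ← h4]
  apply Submodule.span_mono
  rintro _ ⟨l, rfl⟩
  exact ⟨σ l, rfl⟩

end Nakayama

section Adic

open IsLocalRing

variable {T : Type} [CommRing T] [IsLocalRing T]

local notation "G" => (AlgebraicClosure ℚ ≃ₐ[ℚ] AlgebraicClosure ℚ)

/-- For a residually absolutely irreducible representation the image spans the endomorphism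
ring. -/
theorem span_range_eq_top_of_absIrr (ρ : GaloisRepAdic T)
    (habs : ρ.residual.IsAbsolutelyIrreducible) :
    Submodule.span T (Set.range ρ.ρ) = ⊤ := by
  classical
  let k := ResidueField T
  let kb := AlgebraicClosure k
  let b : Basis (Fin 2) T ρ.V := finBasisOfFinrankEq T ρ.V ρ.finrank_eq
  let bk : Basis (Fin 2) k (TensorProduct T k ρ.V) := Algebra.TensorProduct.basis k b
  let bkb : Basis (Fin 2) kb (TensorProduct k kb (TensorProduct T k ρ.V)) :=
    Algebra.TensorProduct.basis kb bk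
  let φ : T →+* kb := (algebraMap k kb).comp (residue T)
  have : IsLocalHom φ := by
    constructor
    intro x hx
    rw [← residue_ne_zero_iff_isUnit]
    intro h0
    have : φ x = 0 := by
      show algebraMap k kb (residue T x) = 0
      rw [h0, map_zero]
    rw [this] at hx
    exact not_isUnit_zero hx
  let R := ρ.residual.baseChange kb
  have hburn : Submodule.span kb (Set.range R.ρ) = ⊤ :=
    burnside_two R.finrank_eq R.ρ habs
  let A : G → Matrix (Fin 2) (Fin 2) T := fun σ => LinearMap.toMatrix b b (ρ.ρ σ)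
  have hA : ∀ σ, LinearMap.toMatrix bkb bkb (R.ρ σ) = (A σ).map φ := by
    intro σ
    have h1 : R.ρ σ = ((ρ.ρ σ).baseChange k).baseChange kb := rfl
    rw [h1, LinearMap.toMatrix_baseChange, LinearMap.toMatrix_baseChange, Matrix.map_map]
    rfl
  have hspan : Submodule.span kb (Set.range fun σ => (A σ).map φ) = ⊤ := by
    have h1 := span_range_equiv_comp (LinearMap.toMatrix bkb bkb) (fun σ => R.ρ σ) hburn
    rw [← h1]
    congr 2
    funext σ
    exact (hA σ).symm
  have hT := span_matrix_eq_top_of_map φ A hspan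
  have h2 := span_range_equiv_comp (LinearMap.toMatrix b b).symm A hT
  rw [← h2]
  congr 2
  funext σ
  simp [A]

/-- Trace rigidity. -/
theorem eq_one_of_trace (ρ : GaloisRepAdic T) (habs : ρ.residual.IsAbsolutelyIrreducible)
    (τ : G) (h : ∀ σ : G, LinearMap.trace T ρ.V (ρ.ρ (σ * τ)) = LinearMap.trace T ρ.V (ρ.ρ σ)) :
    ρ.ρ τ = 1 := by
  classical
  let b : Basis (Fin 2) T ρ.V := finBasisOfFinrankEq T ρ.V ρ.finrank_eq
  have hspan := span_range_eq_top_of_absIrr ρ habs
  have key : ∀ X : Module.End T ρ.V,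
      LinearMap.trace T ρ.V (X * ρ.ρ τ) = LinearMap.trace T ρ.V (X * 1) := by
    intro X
    have hX : X ∈ Submodule.span T (Set.range ρ.ρ) := hspan ▸ Submodule.mem_top
    induction hX using Submodule.span_induction with
    | mem x hx =>
      obtain ⟨σ, rfl⟩ := hx
      rw [← map_mul, h σ, mul_one]
    | zero => simp
    | add x y _ _ hx hy => rw [add_mul, add_mul, map_add, map_add, hx, hy]
    | smul c x _ hx => rw [smul_mul_assoc, smul_mul_assoc, map_smul, map_smul, hx]
  apply (LinearMap.toMatrix b b).injective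
  rw [Matrix.ext_iff_trace_mul_left]
  intro x
  have := key (Matrix.toLin b b x)
  rw [LinearMap.trace_eq_matrix_trace T b, LinearMap.trace_eq_matrix_trace T b,
    LinearMap.toMatrix_mul, LinearMap.toMatrix_mul, LinearMap.toMatrix_toLin] at this
  exact this

/-- Trace rigidity, adic version. -/
theorem eq_one_of_trace_adic [IsNoetherianRing T] (ρ : GaloisRepAdic T)
    (habs : ρ.residual.IsAbsolutelyIrreducible) (τ : G)
    (h : ∀ (n : ℕ) (σ : G), LinearMap.trace T ρ.V (ρ.ρ (σ * τ)) - LinearMap.trace T ρ.V (ρ.ρ σ) ∈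
      maximalIdeal T ^ n) :
    ρ.ρ τ = 1 := by
  refine eq_one_of_trace ρ habs τ fun σ => sub_eq_zero.mp ?_
  have h1 : LinearMap.trace T ρ.V (ρ.ρ (σ * τ)) - LinearMap.trace T ρ.V (ρ.ρ σ) ∈
      ⨅ n : ℕ, maximalIdeal T ^ n := by
    rw [Ideal.mem_iInf]
    exact fun n => h n σ
  rw [Ideal.iInf_pow_eq_bot_of_isLocalRing _ (Ideal.IsPrime.ne_top inferInstance)] at h1
  exact h1

/-- Consequence in the form used for `IsUnramifiedAt`. -/
theorem isUnramifiedAt_of_trace [IsNoetherianRing T] (ρ : GaloisRepAdic T)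
    (habs : ρ.residual.IsAbsolutelyIrreducible) (q : ℕ)
    (h : ∀ P : ValuationSubring (AlgebraicClosure ℚ), P.LiesOverPrime q →
      ∀ τ ∈ P.inertiaSubgroupIn ℚ, ∀ (n : ℕ) (σ : G),
        LinearMap.trace T ρ.V (ρ.ρ (σ * τ)) - LinearMap.trace T ρ.V (ρ.ρ σ) ∈
          maximalIdeal T ^ n) :
    ρ.IsUnramifiedAt q :=
  fun P hP τ hτ => eq_one_of_trace_adic ρ habs τ (h P hP τ hτ)

end Adic

end Fermat.Agent.GAL.PC
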