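import Fermat.Agent.GAL.PC.Uniq
import Fermat.Agent.GAL.PC.RepPC
import Fermat.Agent.GAL.PC.TraceForm
import Fermat.Agent.Cheb.Final

/-!
# S31 from the interface `HeckePC` (project GAL/PC)
-/

set_option autoImplicit false

namespace Fermat.Agent.GAL.PC

local notation "Qbar" => AlgebraicClosure ℚ
local notation "GQ" => (AlgebraicClosure ℚ ≃ₐ[ℚ] AlgebraicClosure ℚ)

variable {p : ℕ} {N : ℕ} [NeZero N] {S : Finset ℕ}
  {𝒪 : Type} [CommRing 𝒪] [IsDomain 𝒪] [IsDiscreteValuationRing 𝒪]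
  [IsAdicComplete (IsLocalRing.maximalIdeal 𝒪) 𝒪]
  {θ : CuspForm.heckeAlgebra N 2 (↑S : Set ℕ) →+* IsLocalRing.ResidueField 𝒪}
  {T : Type} [CommRing T] [IsLocalRing T] [IsNoetherianRing T]
  [IsAdicComplete (IsLocalRing.maximalIdeal T) T] [Algebra 𝒪 T] [IsLocalHom (algebraMap 𝒪 T)]
  [Module.Finite 𝒪 T] [Module.Free 𝒪 T]

/-- the map `𝕋 / p ^ n → R / I ^ n` induced by a ring homomorphism `π` with `p ∈ I` -/
noncomputable def quotMap {𝕋 R : Type*} [CommRing 𝕋] [CommRing R] (π : 𝕋 →+* R) (I : Ideal R)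
    (p : ℕ) (hp : (p : R) ∈ I) (n : ℕ) : 𝕋 ⧸ Ideal.span {((p : 𝕋)) ^ n} →+* R ⧸ I ^ n :=
  Ideal.Quotient.lift _ ((Ideal.Quotient.mk (I ^ n)).comp π) (by
    intro a ha
    obtain ⟨b, rfl⟩ := Ideal.mem_span_singleton'.mp ha
    rw [RingHom.comp_apply, Ideal.Quotient.eq_zero_iff_mem, map_mul, map_pow, map_natCast]
    exact Ideal.mul_mem_left _ _ (Ideal.pow_mem_pow hp n))

@[simp] theorem quotMap_mk {𝕋 R : Type*} [CommRing 𝕋] [CommRing R] (π : 𝕋 →+* R) (I : Ideal R)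
    (p : ℕ) (hp : (p : R) ∈ I) (n : ℕ) (x : 𝕋) :
    quotMap π I p hp n (Ideal.Quotient.mk _ x) = Ideal.Quotient.mk (I ^ n) (π x) := rfl

theorem s31_of_heckePC (hPC : HeckePC N (↑S : Set ℕ) p)
    (hp𝒪 : (p : 𝒪) ∈ IsLocalRing.maximalIdeal 𝒪)
    (hNS : ∀ q : ℕ, q.Prime → q ∣ N → q ∈ S)
    (H : CuspForm.HeckeGaloisRepDatum N (↑S : Set ℕ) 𝒪 θ T)
    (q : ℕ) (hq : q.Prime) (hqS : q ∉ S) :
    H.ρ.IsUnramifiedAt q := by
  have hpT : (p : T) ∈ IsLocalRing.maximalIdeal T := by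
    have h1 : (p : T) = algebraMap 𝒪 T (p : 𝒪) := (map_natCast _ _).symm
    rw [h1, IsLocalRing.mem_maximalIdeal, mem_nonunits_iff]
    intro hu
    exact (IsLocalRing.mem_maximalIdeal _).mp hp𝒪 (isUnit_of_map_unit (algebraMap 𝒪 T) _ hu)
  refine isUnramifiedAt_of_trace H.ρ H.residual_absIrr q fun P hP τ hτ n σ => ?_
  obtain ⟨t, c, hpc, -⟩ := hPC n
  have h1 := hpc.toIsPrePC.map (quotMap H.π (IsLocalRing.maximalIdeal T) p hpT n)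
  have h2 := isPrePC_of_rep H.ρ (↑S : Set ℕ) (fun ℓ => H.π (heckeT N (↑S : Set ℕ) ℓ))
    (fun ℓ hℓ hℓS A hA σ hσ => by
      have hℓN : ¬ ℓ ∣ N := fun h => hℓS (hNS ℓ hℓ h)
      rw [heckeT_eq hℓ hℓN hℓS]
      exact H.charpoly_frob ℓ hℓ hℓN hℓS A hA σ hσ) n
  have h3 := IsPrePC.unique Fermat.Agent.Cheb.preludeSpec h2 h1
  have h4 := congrFun h3 (σ * τ)
  have h5 := congrFun h3 σ
  rw [← Ideal.Quotient.eq, h4, h5, hpc.inert q hq hqS P hP τ hτ σ]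

end Fermat.Agent.GAL.PC
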