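import Fermat.Agent.GAL.PC.AdicDefs
import Fermat.Agent.GAL.PC.Limit
import Fermat.Agent.GAL.PC.Uniq
import Fermat.Agent.GAL.PC.S31Wire
import Fermat.Agent.Cheb.Final

/-!
# From `HeckePC` to an adic pseudo-character (project GAL/PC, leaf S30A)
-/

set_option autoImplicit false

namespace Fermat.Agent.GAL.PC

local notation "Qbar" => AlgebraicClosure ℚ
local notation "GQ" => (AlgebraicClosure ℚ ≃ₐ[ℚ] AlgebraicClosure ℚ)

theorem exists_isAdicPC {p N : ℕ} [NeZero N] (hp : p.Prime) {S : Finset ℕ} (hpS : p ∈ S)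
    (hPC : HeckePC N (↑S : Set ℕ) p)
    {R : Type*} [CommRing R] [IsLocalRing R] [IsAdicComplete (IsLocalRing.maximalIdeal R) R]
    (hpR : (p : R) ∈ IsLocalRing.maximalIdeal R)
    (χ : CuspForm.heckeAlgebra N 2 (↑S : Set ℕ) →+* R) :
    ∃ (t : GQ → R) (c : GQ →* R),
      IsAdicPC (IsLocalRing.maximalIdeal R) (↑S : Set ℕ) {q | q ∣ N * p}
        (fun ℓ => χ (heckeT N (↑S : Set ℕ) ℓ)) t c := by
  set I := IsLocalRing.maximalIdeal R with hI
  set a : ℕ → R := fun ℓ => χ (heckeT N (↑S : Set ℕ) ℓ) with ha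
  have hC := Fermat.Agent.Cheb.preludeSpec
  have hn : ∀ n : ℕ, ∃ (t : GQ → R ⧸ I ^ n) (c : GQ →* R ⧸ I ^ n),
      IsPC (↑S : Set ℕ) (fun ℓ => Ideal.Quotient.mk (I ^ n) (a ℓ)) t c ∧
        IsUnrOutside {q | q ∣ N * p} t := by
    intro n
    obtain ⟨t, c, h1, h2⟩ := hPC n
    have := h1.map (quotMap χ I p hpR n)
    simp only [quotMap_mk] at this
    exact ⟨_, _, this, h2.map _⟩
  obtain ⟨t, c, htc⟩ := exists_limit hC I S a fun n => by
    obtain ⟨t, c, h1, -⟩ := hn n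
    exact ⟨t, c, h1⟩
  refine ⟨t, c, ?_, ?_, ?_, ?_, ?_, ?_, ?_⟩
  · refine eq_of_forall_mk_eq I fun n => ?_
    rw [(htc n).one]
    exact (map_ofNat _ 2).symm
  · intro σ τ
    refine eq_of_forall_mk_eq I fun n => ?_
    have := (htc n).mul σ τ
    rw [map_mul, map_add, map_mul]
    exact this
  · intro σ τ
    exact eq_of_forall_mk_eq I fun n => (htc n).comm σ τ
  · intro ℓ hℓ hℓS A hA σ hσ
    refine ⟨eq_of_forall_mk_eq I fun n => (htc n).frob ℓ hℓ hℓS A hA σ hσ,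
      eq_of_forall_mk_eq I fun n => ?_⟩
    have := (htc n).cyc.frob ℓ hℓ hℓS A hA σ hσ
    rw [map_natCast]
    exact this
  · intro q hq hU A hA τ hτ σ
    refine eq_of_forall_mk_eq I fun n => ?_
    obtain ⟨t', c', h1, h2⟩ := hn n
    have h3 := IsPrePC.unique hC (htc n).toIsPrePC h1.toIsPrePC
    have h4 := congrFun h3 (σ * τ)
    have h5 := congrFun h3 σ
    exact h4.trans ((h2 q hq hU A hA τ hτ σ).trans h5.symm)
  · intro n
    obtain ⟨L, hL, h1⟩ := (htc n).lvl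
    exact ⟨L, hL, fun τ hτ σ => Ideal.Quotient.eq.mp (h1 τ hτ σ)⟩
  · refine eq_of_forall_mk_eq I fun n => ?_
    have : NeZero (p ^ n) := ⟨pow_ne_zero n hp.ne_zero⟩
    have h0 : ((p ^ n : ℕ) : R ⧸ I ^ n) = 0 := by
      have : ((p ^ n : ℕ) : R ⧸ I ^ n) = Ideal.Quotient.mk (I ^ n) ((p : R) ^ n) := by
        push_cast
        rfl
      rw [this, Ideal.Quotient.eq_zero_iff_mem]
      exact Ideal.pow_mem_pow hpR n
    have h1 := IsCyc.unique hC (htc n).cyc (isCyc_cycTo (R ⧸ I ^ n) (p ^ n) h0 (↑S : Set ℕ)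
      fun ℓ hℓ hd => by
        have := (Nat.prime_dvd_prime_iff_eq hℓ hp).mp (hℓ.dvd_of_dvd_pow hd)
        rw [this]
        exact hpS)
    have h2 := DFunLike.congr_fun h1 complexConjugation
    rw [cycTo_apply, cycloChar_complexConjugation, map_neg, map_one] at h2
    rw [map_neg, map_one]
    exact h2

end Fermat.Agent.GAL.PC
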