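import Fermat.Agent.GAL.PC.AdicDefs
import Fermat.Agent.GAL.PC.S30A

/-!
# S30 from the interface `HeckePC` (project GAL/PC, leaf S30C)
-/

set_option autoImplicit false

open Polynomial

namespace Fermat.Agent.GAL.PC

local notation "Qbar" => AlgebraicClosure ℚ
local notation "GQ" => (AlgebraicClosure ℚ ≃ₐ[ℚ] AlgebraicClosure ℚ)

theorem exists_galoisRepAdic {O : Type} [CommRing O] [IsLocalRing O]
    (ρ : GQ →* Matrix (Fin 2) (Fin 2) O)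
    (hcont : ∀ n : ℕ, ∃ L : IntermediateField ℚ Qbar, FiniteDimensional ℚ L ∧
        ∀ τ : GQ, (∀ x ∈ L, τ x = x) → ∀ i j, (ρ τ - 1) i j ∈ IsLocalRing.maximalIdeal O ^ n) :
    ∃ r : GaloisRepAdic O, (∀ σ, LinearMap.charpoly (r.ρ σ) =
        X ^ 2 - C (ρ σ).trace * X + C (ρ σ).det) ∧ ∀ σ, ρ σ = 1 → r.ρ σ = 1 := by
  refine ⟨{ V := Fin 2 → O
            finrank_eq := Module.finrank_fin_fun O
            ρ := ((Matrix.toLinAlgEquiv' : Matrix (Fin 2) (Fin 2) O ≃ₐ[O] _) :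
              Matrix (Fin 2) (Fin 2) O →* Module.End O (Fin 2 → O)).comp ρ
            isAdicContinuous := ?_ }, ?_, ?_⟩
  · intro n
    obtain ⟨L, hL, h1⟩ := hcont n
    refine ⟨L, hL, fun σ hσ v => ?_⟩
    have h2 : (((Matrix.toLinAlgEquiv' : Matrix (Fin 2) (Fin 2) O ≃ₐ[O] _) :
        Matrix (Fin 2) (Fin 2) O →* Module.End O (Fin 2 → O)).comp ρ) σ v - v =
        (ρ σ - 1).mulVec v := by
      rw [Matrix.sub_mulVec, Matrix.one_mulVec]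
      rfl
    rw [h2]
    have h3 : (ρ σ - 1).mulVec v = ∑ i, ((ρ σ - 1).mulVec v i) • (Pi.single i 1 : Fin 2 → O) := by
      ext k
      simp [Finset.sum_apply, Pi.single_apply]
    rw [h3]
    refine Submodule.sum_mem _ fun i _ => Submodule.smul_mem_smul ?_ Submodule.mem_top
    rw [Matrix.mulVec, dotProduct]
    exact Ideal.sum_mem _ fun j _ => Ideal.mul_mem_right _ _ (h1 σ hσ i j)
  · intro σ
    have : LinearMap.charpoly ((((Matrix.toLinAlgEquiv' : Matrix (Fin 2) (Fin 2) O ≃ₐ[O] _) :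
        Matrix (Fin 2) (Fin 2) O →* Module.End O (Fin 2 → O)).comp ρ) σ) = (ρ σ).charpoly :=
      Matrix.charpoly_toLin' (ρ σ)
    rw [this, Matrix.charpoly_fin_two]
  · intro σ hσ
    show (((Matrix.toLinAlgEquiv' : Matrix (Fin 2) (Fin 2) O ≃ₐ[O] _) :
        Matrix (Fin 2) (Fin 2) O →* Module.End O (Fin 2 → O)).comp ρ) σ = 1
    rw [MonoidHom.comp_apply, hσ, map_one]

/-- The statement of leaf S30B (`exists_matrix_rep`), for rings in `Type`. -/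
def MatrixRepSpec : Prop :=
  ∀ {O : Type} [CommRing O] [IsDomain O] [IsDiscreteValuationRing O]
    [CharZero O] {S U : Set ℕ} {a : ℕ → O} {t : GQ → O} {c : GQ →* O},
    IsAdicPC (IsLocalRing.maximalIdeal O) S U a t c →
    ∃ ρ : GQ →* Matrix (Fin 2) (Fin 2) O,
      (∀ σ, (ρ σ).trace = t σ) ∧ (∀ σ, (ρ σ).det = c σ) ∧
      (∀ τ : GQ, (∀ σ, t (σ * τ) = t σ) → ρ τ = 1) ∧
      ∀ n : ℕ, ∃ L : IntermediateField ℚ Qbar, FiniteDimensional ℚ L ∧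
        ∀ τ : GQ, (∀ x ∈ L, τ x = x) → ∀ i j, (ρ τ - 1) i j ∈ IsLocalRing.maximalIdeal O ^ n

theorem s30_of_heckePC_of_matrixRepSpec (hB : MatrixRepSpec)
    (hPC : ∀ (p : ℕ) (N : ℕ) [NeZero N] (S : Finset ℕ), p.Prime → p ∈ S →
      (∀ q : ℕ, q.Prime → q ∣ N → q ∈ S) → HeckePC N (↑S : Set ℕ) p) :
    ∀ (p : ℕ) [Fact p.Prime] (N : ℕ) [NeZero N] (S : Finset ℕ)
      (_hpS : p ∈ S) (_hNS : ∀ q : ℕ, q.Prime → q ∣ N → q ∈ S)
      (𝒪' : Type) [CommRing 𝒪'] [IsDomain 𝒪'] [IsDiscreteValuationRing 𝒪']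
      [IsAdicComplete (IsLocalRing.maximalIdeal 𝒪') 𝒪'] [Finite (IsLocalRing.ResidueField 𝒪')]
      [CharZero 𝒪'] (_hp𝒪' : (p : 𝒪') ∈ IsLocalRing.maximalIdeal 𝒪')
      (χ : CuspForm.heckeAlgebra N 2 (↑S : Set ℕ) →+* 𝒪'),
      ∃ (𝒪'' : Type) (_ : CommRing 𝒪'') (_ : IsDomain 𝒪'') (_ : IsDiscreteValuationRing 𝒪'')
        (_ : IsAdicComplete (IsLocalRing.maximalIdeal 𝒪'') 𝒪'')
        (_ : Finite (IsLocalRing.ResidueField 𝒪'')) (_ : CharZero 𝒪'')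
        (_ : Algebra 𝒪' 𝒪'') (_ : Module.Finite 𝒪' 𝒪'') (_ : IsLocalHom (algebraMap 𝒪' 𝒪'')),
      Function.Injective (algebraMap 𝒪' 𝒪'') ∧
      ∃ ρ : GaloisRepAdic 𝒪'',
        (∀ (ℓ : ℕ) (hℓ : ℓ.Prime) (hℓN : ¬ ℓ ∣ N) (hℓS : ℓ ∉ (↑S : Set ℕ)),
          ∀ A : ValuationSubring (AlgebraicClosure ℚ), A.LiesOverPrime ℓ →
            ∀ σ : AlgebraicClosure ℚ ≃ₐ[ℚ] AlgebraicClosure ℚ, A.IsFrobeniusAt σ ℓ →
              LinearMap.charpoly (ρ.ρ σ) =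
                X ^ 2 - C (algebraMap 𝒪' 𝒪'' (χ (CuspForm.heckeAlgebra.T hℓ hℓN hℓS))) * X
                  + C ((ℓ : 𝒪''))) ∧
        (∀ q : ℕ, q.Prime → ¬ q ∣ N → q ≠ p → ρ.IsUnramifiedAt q) := by
  intro p hp N _ S hpS hNS 𝒪' _ _ _ _ _ _ hp𝒪' χ
  obtain ⟨t, c, htc⟩ := exists_isAdicPC hp.out hpS (hPC p N S hp.out hpS hNS) hp𝒪' χ
  obtain ⟨ρ, htr, hdet, hunr, hcont⟩ := hB htc
  obtain ⟨r, hr1, hr2⟩ := exists_galoisRepAdic ρ hcont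
  refine ⟨𝒪', inferInstance, inferInstance, inferInstance, inferInstance, inferInstance,
    inferInstance, Algebra.id 𝒪', inferInstance, ?_, Function.injective_id, r, ?_, ?_⟩
  · exact ⟨fun a ha => ha⟩
  · intro ℓ hℓ hℓN hℓS A hA σ hσ
    obtain ⟨h1, h2⟩ := htc.frob ℓ hℓ hℓS A hA σ hσ
    rw [hr1, htr, hdet, h1, h2, heckeT_eq hℓ hℓN hℓS]
    rfl
  · intro q hq hqN hqp P hP σ hσ
    refine hr2 σ (hunr σ fun τ => htc.unr q hq ?_ P hP σ hσ τ)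
    intro hd
    rcases (Nat.Prime.dvd_mul hq).mp hd with h | h
    · exact hqN h
    · exact hqp ((Nat.prime_dvd_prime_iff_eq hq hp.out).mp h)

end Fermat.Agent.GAL.PC
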