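import Fermat.Agent.GAL.PC.Glue
import Fermat.Agent.GAL.PC.S31Wire
import Fermat.Agent.GAL.PC.S30B
import Fermat.Agent.GAL.PC.S30C
import Fermat.Agent.GAL.S29Wire
import Fermat.Agent.GAL.GalHeckeWire

/-!
# S30 and S31 from the two remaining interfaces of project GAL

`ESUnram N p ∧ ESQuad N p` (project RED) and `SUP N m` (`Sup/Main.lean`).
-/

set_option autoImplicit false
open Polynomial

namespace Fermat.Agent.GAL.PC

/-- `HeckePC` from the two remaining interfaces. -/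
theorem heckePC_of_es_sup {N : ℕ} [NeZero N] {p : ℕ} (hp : p.Prime) (S : Finset ℕ) (hpS : p ∈ S)
    (hNS : ∀ q : ℕ, q.Prime → q ∣ N → q ∈ S) (hES : ESUnram N p ∧ ESQuad N p)
    (hS : ∀ k : ℕ, SUP N (p ^ k)) : HeckePC N (↑S : Set ℕ) p :=
  heckePC_of_interfaces hp S hpS hNS (galHecke N) (openStab N) hES.1 hES.2 hS

/-- The exact statement of S30 from the two remaining interfaces. -/
theorem s30_of_interfaces
    (hES : ∀ (N : ℕ) [NeZero N] (p : ℕ), p.Prime → ESUnram N p ∧ ESQuad N p)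
    (hS : ∀ (N : ℕ) [NeZero N] (m : ℕ), m ≠ 0 → SUP N m) :
    ∀ (p : ℕ) [Fact p.Prime] (N : ℕ) [NeZero N] (S : Finset ℕ)
      (_hpS : p ∈ S) (_hNS : ∀ q : ℕ, q.Prime → q ∣ N → q ∈ S)
      (𝒪' : Type) [CommRing 𝒪'] [IsDomain 𝒪'] [IsDiscreteValuationRing 𝒪']
      [IsAdicComplete (IsLocalRing.maximalIdeal 𝒪') 𝒪'] [Finite (IsLocalRing.ResidueField 𝒪')]
      [CharZero 𝒪'] (_hp𝒪' : (p : 𝒪') ∈ IsLocalRing.maximalIdeal 𝒪')
      (χ : CuspForm.heckeAlgebra N 2 (↑S : Set ℕ) →+* 𝒪'),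
      ∃ (𝒪'' : Type) (_ : CommRing 𝒪'') (_ : IsDomain 𝒪'') (_ : IsDiscreteValuationRing 𝒪'')
        (_ : IsAdicComplete (IsLocalRing.maximalIdeal 𝒪'') 𝒪'')
        (_ : Finite (IsLocalRing.ResidueField 𝒪'')) (_ : CharZero 𝒪'')
        (_ : Algebra 𝒪' 𝒪'') (_ : Module.Finite 𝒪' 𝒪'') (_ : IsLocalHom (algebraMap 𝒪' 𝒪'')),
      Function.Injective (algebraMap 𝒪' 𝒪'') ∧
      ∃ ρ : GaloisRepAdic 𝒪'',
        (∀ (ℓ : ℕ) (hℓ : ℓ.Prime) (hℓN : ¬ ℓ ∣ N) (hℓS : ℓ ∉ (↑S : Set ℕ)),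
          ∀ A : ValuationSubring (AlgebraicClosure ℚ), A.LiesOverPrime ℓ →
            ∀ σ : AlgebraicClosure ℚ ≃ₐ[ℚ] AlgebraicClosure ℚ, A.IsFrobeniusAt σ ℓ →
              LinearMap.charpoly (ρ.ρ σ) =
                X ^ 2 - C (algebraMap 𝒪' 𝒪'' (χ (CuspForm.heckeAlgebra.T hℓ hℓN hℓS))) * X
                  + C ((ℓ : 𝒪''))) ∧
        (∀ q : ℕ, q.Prime → ¬ q ∣ N → q ≠ p → ρ.IsUnramifiedAt q) :=
  s30_of_heckePC_of_matrixRepSpec (fun h => exists_matrix_rep h)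
    (fun p N _ S hp hpS hNS => heckePC_of_es_sup hp S hpS hNS (hES N p hp)
      (fun k => hS N (p ^ k) (pow_ne_zero _ hp.ne_zero)))

section S31

variable {p : ℕ} {N : ℕ} [NeZero N] {S : Finset ℕ}
  {𝒪 : Type} [CommRing 𝒪] [IsDomain 𝒪] [IsDiscreteValuationRing 𝒪]
  [IsAdicComplete (IsLocalRing.maximalIdeal 𝒪) 𝒪]
  {θ : CuspForm.heckeAlgebra N 2 (↑S : Set ℕ) →+* IsLocalRing.ResidueField 𝒪}
  {T : Type} [CommRing T] [IsLocalRing T] [IsNoetherianRing T]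
  [IsAdicComplete (IsLocalRing.maximalIdeal T) T] [Algebra 𝒪 T] [IsLocalHom (algebraMap 𝒪 T)]
  [Module.Finite 𝒪 T] [Module.Free 𝒪 T]

/-- The exact statement of S31 from the two remaining interfaces. -/
theorem s31_of_interfaces
    (hES : ∀ (N : ℕ) [NeZero N] (p : ℕ), p.Prime → ESUnram N p ∧ ESQuad N p)
    (hS : ∀ (N : ℕ) [NeZero N] (m : ℕ), m ≠ 0 → SUP N m)
    (hp : p.Prime)
    (hp𝒪 : (p : 𝒪) ∈ IsLocalRing.maximalIdeal 𝒪) (hpS : p ∈ S)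
    (hNS : ∀ q : ℕ, q.Prime → q ∣ N → q ∈ S)
    (H : CuspForm.HeckeGaloisRepDatum N (↑S : Set ℕ) 𝒪 θ T)
    (q : ℕ) (hq : q.Prime) (hqS : q ∉ S) :
    H.ρ.IsUnramifiedAt q :=
  s31_of_heckePC (heckePC_of_es_sup hp S hpS hNS (hES N p hp)
    (fun k => hS N (p ^ k) (pow_ne_zero _ hp.ne_zero))) hp𝒪 hNS H q hq hqS

end S31

end Fermat.Agent.GAL.PC
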