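import Fermat.Agent.GAL.PC.CycloPow

/-!
# Adic pseudo-characters of `G_ℚ` (project GAL/PC): the interface between `HeckePC` and S30
-/

set_option autoImplicit false

namespace Fermat.Agent.GAL.PC

local notation "Qbar" => AlgebraicClosure ℚ
local notation "GQ" => (AlgebraicClosure ℚ ≃ₐ[ℚ] AlgebraicClosure ℚ)

/-- An `I`-adically continuous two-dimensional pseudo-character `t` of `G_ℚ` with determinant `c`,
with `t (Frob_ℓ) = a ℓ`, `c (Frob_ℓ) = ℓ` for `ℓ ∉ S`, unramified outside `U`, odd. -/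
structure IsAdicPC {R : Type*} [CommRing R] (I : Ideal R) (S U : Set ℕ) (a : ℕ → R)
    (t : GQ → R) (c : GQ →* R) : Prop where
  one : t 1 = 2
  mul : ∀ σ τ : GQ, t σ * t τ = t (σ * τ) + c τ * t (σ * τ⁻¹)
  comm : ∀ σ τ : GQ, t (σ * τ) = t (τ * σ)
  frob : ∀ ℓ : ℕ, ℓ.Prime → ℓ ∉ S → ∀ A : ValuationSubring Qbar, A.LiesOverPrime ℓ →
    ∀ σ : GQ, A.IsFrobeniusAt σ ℓ → t σ = a ℓ ∧ c σ = (ℓ : R)
  unr : IsUnrOutside U t
  cont : ∀ n : ℕ, ∃ L : IntermediateField ℚ Qbar, FiniteDimensional ℚ L ∧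
    ∀ τ : GQ, (∀ x ∈ L, τ x = x) → ∀ σ : GQ, t (σ * τ) - t σ ∈ I ^ n
  conj : c complexConjugation = -1

end Fermat.Agent.GAL.PC
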