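import Fermat.Agent.GAL.PC.Defs
import Fermat.Agent.GAL.PC.CycloPow
import Fermat.Agent.Cheb.Spec
import Fermat.Agent.GAL.Lucas

/-!
# GAL/PC: the core construction of Hecke-algebra valued pseudo-characters
-/

set_option autoImplicit false
set_option linter.unusedSectionVars false

namespace Fermat.Agent.GAL.PC

local notation "Qbar" => AlgebraicClosure ℚ
local notation "GQ" => (AlgebraicClosure ℚ ≃ₐ[ℚ] AlgebraicClosure ℚ)

namespace CoreAux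

section Abstract

variable {G 𝓗 J : Type*} [Group G] [CommRing 𝓗] [AddCommGroup J] [Module 𝓗 J]
  [DistribMulAction G J] [SMulCommClass G 𝓗 J]

/-- `σ + χ(σ) σ⁻¹` acts on `M` as the Hecke operator `P σ`. -/
structure Dat (M : AddSubgroup J) (m : ℕ) (χ : G →* (ZMod m)ˣ) (P : G → 𝓗) : Prop where
  tors : ∀ x ∈ M, m • x = 0
  stabG : ∀ (σ : G), ∀ x ∈ M, σ • x ∈ M
  stabH : ∀ (h : 𝓗), ∀ x ∈ M, h • x ∈ M
  spec : ∀ (σ : G), ∀ x ∈ M, σ • x + ((χ σ : (ZMod m)ˣ) : ZMod m).val • σ⁻¹ • x = P σ • x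

variable {M : AddSubgroup J} {m : ℕ} {χ : G →* (ZMod m)ˣ} {P : G → 𝓗}

theorem nsmul_congr (htors : ∀ x ∈ M, m • x = 0) {a b : ℕ} (hab : (a : ZMod m) = b) {x : J}
    (hx : x ∈ M) : a • x = b • x := by
  have h1 : a % m = b % m := (ZMod.natCast_eq_natCast_iff' a b m).1 hab
  have h2 : ∀ c : ℕ, c • x = (c % m) • x := by
    intro c
    conv_lhs => rw [← Nat.div_add_mod c m, add_smul, mul_smul, smul_comm, htors x hx, smul_zero,
      zero_add]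
  rw [h2 a, h2 b, h1]

namespace Dat

variable [NeZero m] (D : Dat M m χ P)
include D

theorem val_mul (σ τ : G) {x : J} (hx : x ∈ M) :
    ((χ (σ * τ) : (ZMod m)ˣ) : ZMod m).val • x =
      ((χ σ : (ZMod m)ˣ) : ZMod m).val • ((χ τ : (ZMod m)ˣ) : ZMod m).val • x := by
  rw [← mul_smul]
  apply nsmul_congr D.tors _ hx
  simp

theorem val_inv (σ : G) {x : J} (hx : x ∈ M) :
    ((χ σ : (ZMod m)ˣ) : ZMod m).val • ((χ σ⁻¹ : (ZMod m)ˣ) : ZMod m).val • x = x := by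
  rw [← mul_smul]
  conv_rhs => rw [← one_smul ℕ x]
  apply nsmul_congr D.tors _ hx
  simp

theorem val_of_eq_one {σ : G} (hσ : χ σ = 1) {x : J} (hx : x ∈ M) :
    ((χ σ : (ZMod m)ˣ) : ZMod m).val • x = x := by
  conv_rhs => rw [← one_smul ℕ x]
  apply nsmul_congr D.tors _ hx
  simp [hσ]

theorem one_spec {x : J} (hx : x ∈ M) : P 1 • x = (2 : 𝓗) • x := by
  rw [← D.spec 1 x hx, inv_one, one_smul, D.val_of_eq_one (map_one χ) hx, two_smul]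

theorem mul_spec (σ τ : G) {x : J} (hx : x ∈ M) :
    (P σ * P τ) • x =
      (P (σ * τ) + (((χ τ : (ZMod m)ˣ) : ZMod m).val : 𝓗) * P (σ * τ⁻¹)) • x := by
  set a := ((χ σ : (ZMod m)ˣ) : ZMod m).val with ha
  set b := ((χ τ : (ZMod m)ˣ) : ZMod m).val with hb
  have hy : P τ • x ∈ M := D.stabH _ _ hx
  have hσx : σ⁻¹ • x ∈ M := D.stabG _ _ hx
  have L1 : (P σ * P τ) • x = σ • (P τ • x) + a • σ⁻¹ • (P τ • x) := by
    rw [mul_smul, ← D.spec σ _ hy]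
  have L2 : σ • (P τ • x) = (σ * τ) • x + b • (σ * τ⁻¹) • x := by
    rw [← D.spec τ x hx, smul_add, mul_smul, mul_smul, smul_comm σ b]
  have L3 : σ⁻¹ • (P τ • x) = (τ * σ⁻¹) • x + b • (τ⁻¹ * σ⁻¹) • x := by
    rw [smul_comm σ⁻¹ (P τ) x, ← D.spec τ _ hσx, mul_smul, mul_smul]
  have R1 : P (σ * τ) • x = (σ * τ) • x + a • b • (τ⁻¹ * σ⁻¹) • x := by
    rw [← D.spec (σ * τ) x hx, mul_inv_rev, D.val_mul σ τ (D.stabG _ _ hx)]
  have R2 : P (σ * τ⁻¹) • x = (σ * τ⁻¹) • x +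
      a • ((χ τ⁻¹ : (ZMod m)ˣ) : ZMod m).val • (τ * σ⁻¹) • x := by
    rw [← D.spec (σ * τ⁻¹) x hx, mul_inv_rev, inv_inv, D.val_mul σ τ⁻¹ (D.stabG _ _ hx)]
  rw [L1, L2, L3, add_smul, mul_smul (b : 𝓗) (P (σ * τ⁻¹)) x, R1, R2, Nat.cast_smul_eq_nsmul,
    smul_add, smul_add, smul_comm b a, D.val_inv τ (D.stabG _ _ hx)]
  abel

theorem comm_spec (σ τ : G) {x : J} (hx : x ∈ M) : P (σ * τ) • x = P (τ * σ) • x := by
  have h1 : σ • x ∈ M := D.stabG _ _ hx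
  have h2 : P (σ * τ) • x = σ⁻¹ • (P (σ * τ) • (σ • x)) := by
    rw [smul_comm σ⁻¹, inv_smul_smul]
  rw [h2, ← D.spec _ _ h1, ← D.spec _ _ hx, smul_add, smul_comm σ⁻¹ (ZMod.val _)]
  have h3 : χ (σ * τ) = χ (τ * σ) := by rw [map_mul, map_mul, mul_comm]
  rw [h3]
  have e1 : σ⁻¹ • (σ * τ) • σ • x = (τ * σ) • x := by
    simp only [← mul_smul]
    congr 1
    group
  have e2 : σ⁻¹ • (σ * τ)⁻¹ • σ • x = (τ * σ)⁻¹ • x := by
    simp only [← mul_smul]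
    congr 1
    group
  rw [e1, e2]

theorem triv_spec (σ : G) {τ : G} (hτ : ∀ x ∈ M, τ • x = x) (hχ : χ τ = 1) {x : J} (hx : x ∈ M) :
    P (σ * τ) • x = P σ • x := by
  have h1 : χ (σ * τ) = χ σ := by rw [map_mul, hχ, mul_one]
  have h2 : τ⁻¹ • σ⁻¹ • x = σ⁻¹ • x := by
    rw [inv_smul_eq_iff, hτ _ (D.stabG _ _ hx)]
  rw [← D.spec _ _ hx, ← D.spec _ _ hx, h1, mul_inv_rev, mul_smul, mul_smul, hτ x hx, h2]

end Dat

/-- powers of an operator satisfying a quadratic equation on `M`. -/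
theorem lucas_spec (hG : ∀ (σ : G), ∀ x ∈ M, σ • x ∈ M) {φ : G} {T : 𝓗} {ℓ : ℕ}
    (h : ∀ x ∈ M, φ • φ • x - T • (φ • x) + ℓ • x = 0) (a : ℕ) :
    ∀ x ∈ M, φ ^ a • x + ℓ ^ a • (φ ^ a)⁻¹ • x = lucasV T (ℓ : 𝓗) a • x := by
  have hT : ∀ y ∈ M, T • y = φ • y + ℓ • φ⁻¹ • y := by
    intro y hy
    have := h _ (hG φ⁻¹ y hy)
    rw [smul_inv_smul] at this
    rw [← sub_eq_zero, ← neg_eq_zero, ← this]
    abel
  induction a using Nat.strong_induction_on with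
  | _ a ih =>
    intro x hx
    match a with
    | 0 => simp [lucasV, two_smul]
    | 1 => simp only [pow_one, lucasV]; exact (hT x hx).symm
    | (b + 2) =>
      have h1 := ih (b + 1) (by omega) x hx
      have h0 := ih b (by omega) x hx
      rw [lucasV, sub_smul, mul_smul, mul_smul, ← h1, ← h0, smul_add, smul_comm T (ℓ ^ (b + 1)),
        hT _ (hG _ x hx), hT _ (hG _ x hx), Nat.cast_smul_eq_nsmul]
      have e1 : φ • φ ^ (b + 1) • x = φ ^ (b + 2) • x := by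
        rw [← mul_smul, ← pow_succ']
      have e2 : φ⁻¹ • φ ^ (b + 1) • x = φ ^ b • x := by
        rw [pow_succ', mul_smul, inv_smul_smul]
      have e3 : φ • (φ ^ (b + 1))⁻¹ • x = (φ ^ b)⁻¹ • x := by
        rw [pow_succ', mul_inv_rev, ← mul_smul]
        congr 1
        have : Commute φ (φ ^ b)⁻¹ := (Commute.refl φ).pow_right b |>.inv_right
        rw [← mul_assoc, this.eq, mul_assoc, mul_inv_cancel, mul_one]
      have e4 : φ⁻¹ • (φ ^ (b + 1))⁻¹ • x = (φ ^ (b + 2))⁻¹ • x := by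
        rw [← mul_smul, ← mul_inv_rev, ← pow_succ]
      rw [e1, e2, e3, e4]
      have e5 : ℓ ^ (b + 1) • ℓ • (φ ^ (b + 2))⁻¹ • x = ℓ ^ (b + 2) • (φ ^ (b + 2))⁻¹ • x := by
        rw [← mul_smul, ← pow_succ]
      have e6 : ℓ • ℓ ^ b • (φ ^ b)⁻¹ • x = ℓ ^ (b + 1) • (φ ^ b)⁻¹ • x := by
        rw [← mul_smul, ← pow_succ']
      rw [smul_add, smul_add, e5, e6]
      abel

end Abstract

/-- a finite normal level fixing a finite set of elements and the cyclotomic character. -/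
theorem exists_level {J : Type*} [AddCommGroup J] [DistribMulAction GQ J]
    {X : Set J} (hStab : ∀ x ∈ X, ∃ L : IntermediateField ℚ Qbar, FiniteDimensional ℚ L ∧
      ∀ σ : GQ, (∀ y ∈ L, σ y = y) → σ • x = x) (hX : X.Finite) (m : ℕ) [NeZero m] :
    ∃ L : IntermediateField ℚ Qbar, FiniteDimensional ℚ L ∧ (∀ σ : GQ, ∀ y ∈ L, σ y ∈ L) ∧
      (∀ σ : GQ, (∀ y ∈ L, σ y = y) → ∀ x ∈ X, σ • x = x) ∧
      (∀ σ : GQ, (∀ y ∈ L, σ y = y) → cycloChar m σ = 1) := by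
  classical
  choose! Lx hLfd hLx using hStab
  obtain ⟨Lc, hLcfd, hLc⟩ := cycloChar_finiteLevel m
  set L0 : IntermediateField ℚ Qbar := (⨆ x ∈ hX.toFinset, Lx x) ⊔ Lc with hL0
  have hfd0 : FiniteDimensional ℚ L0 := by
    have := IntermediateField.finiteDimensional_iSup_of_finset' (K := ℚ) (L := Qbar) (t := Lx)
      (s := hX.toFinset) (fun i hi => hLfd i (hX.mem_toFinset.1 hi))
    exact IntermediateField.finiteDimensional_sup _ _
  have hle : L0 ≤ IntermediateField.normalClosure ℚ L0 Qbar := IntermediateField.le_normalClosure L0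
  have hnorm : Normal ℚ (IntermediateField.normalClosure ℚ L0 Qbar) := normalClosure.normal ℚ L0 Qbar
  refine ⟨IntermediateField.normalClosure ℚ L0 Qbar, normalClosure.is_finiteDimensional ℚ L0 Qbar,
    ?_, ?_, ?_⟩
  · intro σ y hy
    have := IntermediateField.normal_iff_forall_map_le'.1 hnorm σ
    exact this ⟨y, hy, rfl⟩
  · intro σ hσ x hx
    apply hLx x hx σ
    intro y hy
    apply hσ y (hle _)
    have h1 : Lx x ≤ ⨆ x ∈ hX.toFinset, Lx x :=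
      le_iSup₂ (f := fun x (_ : x ∈ hX.toFinset) => Lx x) x (hX.mem_toFinset.2 hx)
    exact (h1.trans le_sup_left) hy
  · intro σ hσ
    apply hLc σ
    intro y hy
    exact hσ y (hle ((le_sup_right : Lc ≤ L0) hy))

end CoreAux

open CoreAux in
theorem core (hC : Fermat.Agent.Cheb.PreludeSpec) {p : ℕ} (hp : p.Prime) (S : Finset ℕ)
    (U : Set ℕ) (hpU : p ∈ U) (hUS : U ⊆ (↑S : Set ℕ))
    {𝓗 𝕋 J : Type*} [CommRing 𝓗] [CommRing 𝕋] [AddCommGroup J] [Module 𝓗 J]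
    [DistribMulAction GQ J] [SMulCommClass GQ 𝓗 J] (gen : ℕ → 𝓗) (ev : 𝓗 →+* 𝕋)
    (hUnr : ∀ q : ℕ, q.Prime → q ∉ U → ∀ A : ValuationSubring Qbar, A.LiesOverPrime q →
      ∀ σ ∈ A.inertiaSubgroupIn ℚ, ∀ x : J, (∃ n : ℕ, p ^ n • x = 0) → σ • x = x)
    (hFrob : ∀ ℓ : ℕ, ℓ.Prime → ℓ ∉ S → ∀ A : ValuationSubring Qbar, A.LiesOverPrime ℓ →
      ∀ σ : GQ, A.IsFrobeniusAt σ ℓ → ∀ x : J, (∃ n : ℕ, p ^ n • x = 0) →
        σ • σ • x - gen ℓ • (σ • x) + ℓ • x = 0)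
    (hStab : ∀ x : J, (∃ n : ℕ, p ^ n • x = 0) →
      ∃ L : IntermediateField ℚ Qbar, FiniteDimensional ℚ L ∧
      ∀ σ : GQ, (∀ y ∈ L, σ y = y) → σ • x = x)
    (hSup : ∀ n : ℕ, ∃ X : Set J, X.Finite ∧ (∀ x ∈ X, ∃ k : ℕ, p ^ k • x = 0) ∧
      ∀ P : 𝓗, (∀ x ∈ X, P • x = 0) → ev P ∈ Ideal.span {((p : 𝕋)) ^ n}) (n : ℕ) :
    ∃ (t : GQ → 𝕋 ⧸ Ideal.span {((p : 𝕋)) ^ n}) (c : GQ →* 𝕋 ⧸ Ideal.span {((p : 𝕋)) ^ n}),
      IsPC (↑S : Set ℕ) (fun ℓ => Ideal.Quotient.mk _ (ev (gen ℓ))) t c ∧ IsUnrOutside U t := by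
  classical
  have hpS : p ∈ S := Finset.mem_coe.1 (hUS hpU)
  obtain ⟨X, hXfin, hXtors, hXsup⟩ := hSup n
  have hStabX := fun x (hx : x ∈ X) => hStab x (hXtors x hx)
  -- a uniform exponent
  obtain ⟨k, hkn, hk⟩ : ∃ k : ℕ, n ≤ k ∧ ∀ x ∈ X, p ^ k • x = 0 := by
    choose! e he using hXtors
    refine ⟨n + hXfin.toFinset.sup e, Nat.le_add_right _ _, fun x hx => ?_⟩
    have h1 : e x ≤ hXfin.toFinset.sup e := Finset.le_sup (f := e) (hXfin.mem_toFinset.2 hx)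
    obtain ⟨d, hd⟩ := Nat.exists_eq_add_of_le (h1.trans (Nat.le_add_left _ n))
    rw [hd, pow_add, mul_comm, mul_smul, he x hx, smul_zero]
  set m := p ^ k with hm
  have : NeZero m := ⟨pow_ne_zero _ hp.ne_zero⟩
  have hmR : ((m : ℕ) : 𝕋 ⧸ Ideal.span {((p : 𝕋)) ^ n}) = 0 := by
    rw [← map_natCast (Ideal.Quotient.mk (Ideal.span {((p : 𝕋)) ^ n})), Ideal.Quotient.eq_zero_iff_mem,
      Ideal.mem_span_singleton, hm, Nat.cast_pow]
    exact pow_dvd_pow _ hkn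
  obtain ⟨L, hLfd, hLnorm, hLX, hLχ⟩ := exists_level hStabX hXfin m
  -- the module `M`
  let M : AddSubgroup J :=
    { carrier := {x | m • x = 0 ∧ ∀ σ : GQ, (∀ y ∈ L, σ y = y) → σ • x = x}
      zero_mem' := ⟨smul_zero _, fun σ _ => smul_zero _⟩
      add_mem' := fun {a b} ha hb => ⟨by rw [smul_add, ha.1, hb.1, add_zero],
        fun σ hσ => by rw [smul_add, ha.2 σ hσ, hb.2 σ hσ]⟩
      neg_mem' := fun {a} ha => ⟨by rw [smul_neg, ha.1, neg_zero],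
        fun σ hσ => by rw [smul_neg, ha.2 σ hσ]⟩ }
  have hMmem : ∀ x : J, x ∈ M ↔ (m • x = 0 ∧ ∀ σ : GQ, (∀ y ∈ L, σ y = y) → σ • x = x) :=
    fun x => Iff.rfl
  have hXM : ∀ x ∈ X, x ∈ M := fun x hx => ⟨hk x hx, fun σ hσ => hLX σ hσ x hx⟩
  have hMtors : ∀ x ∈ M, m • x = 0 := fun x hx => hx.1
  have hMp : ∀ x ∈ M, ∃ n : ℕ, p ^ n • x = 0 := fun x hx => ⟨k, hx.1⟩
  have hMG : ∀ (σ : GQ), ∀ x ∈ M, σ • x ∈ M := by
    intro σ x hx
    refine ⟨by rw [smul_comm, hx.1, smul_zero], fun ρ hρ => ?_⟩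
    have h1 : (σ⁻¹ * ρ * σ) • x = x := by
      apply hx.2
      intro y hy
      rw [AlgEquiv.mul_apply, AlgEquiv.mul_apply, hρ _ (hLnorm σ y hy)]
      exact σ.symm_apply_apply y
    rw [mul_smul, mul_smul, inv_smul_eq_iff] at h1
    exact h1
  have hMH : ∀ (h : 𝓗), ∀ x ∈ M, h • x ∈ M := by
    intro h x hx
    exact ⟨by rw [smul_comm, hx.1, smul_zero], fun ρ hρ => by rw [smul_comm, hx.2 ρ hρ]⟩
  set χ := cycloChar m with hχ
  -- powers of Frobenius lifts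
  have hFr : ∀ ℓ : ℕ, ℓ.Prime → ℓ ∉ S → ∀ A : ValuationSubring Qbar, A.LiesOverPrime ℓ →
      ∀ φ : GQ, A.IsFrobeniusAt φ ℓ → ∀ a : ℕ, ∀ x ∈ M,
        φ ^ a • x + ((χ (φ ^ a) : (ZMod m)ˣ) : ZMod m).val • (φ ^ a)⁻¹ • x =
          lucasV (gen ℓ) (ℓ : 𝓗) a • x := by
    intro ℓ hℓ hℓS A hA φ hφ a x hx
    have hcop : Nat.Coprime ℓ m := by
      apply Nat.Coprime.pow_right
      exact (Nat.coprime_primes hℓ hp).2 (fun h => hℓS (h ▸ hpS))
    have h1 : ((χ φ : (ZMod m)ˣ) : ZMod m) = ℓ := cycloChar_of_isFrobeniusAt' m hℓ hcop hA hφ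
    rw [← lucas_spec hMG (fun x hx => hFrob ℓ hℓ hℓS A hA φ hφ x (hMp x hx)) a x hx]
    congr 1
    apply nsmul_congr hMtors _ (hMG _ x hx)
    simp [h1]
  have hex : ∀ σ : GQ, ∃ P : 𝓗, ∀ x ∈ M,
      σ • x + ((χ σ : (ZMod m)ˣ) : ZMod m).val • σ⁻¹ • x = P • x := by
    intro σ
    obtain ⟨ℓ, A, τ, a, b, hℓ, hℓS, hA, hτ, -, hτσ, -⟩ := hC L hLfd σ S
    refine ⟨lucasV (gen ℓ) (ℓ : 𝓗) a, fun x hx => ?_⟩
    have hρ : ∀ y ∈ L, (σ⁻¹ * τ ^ a) y = y := by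
      intro y hy
      rw [AlgEquiv.mul_apply, hτσ y hy]
      exact σ.symm_apply_apply y
    have h1 : ∀ x ∈ M, τ ^ a • x = σ • x := by
      intro x hx
      have := hx.2 _ hρ
      rwa [mul_smul, inv_smul_eq_iff] at this
    have h2 : (τ ^ a)⁻¹ • x = σ⁻¹ • x := by
      rw [inv_smul_eq_iff, h1 _ (hMG _ x hx), smul_inv_smul]
    have h3 : χ (τ ^ a) = χ σ := by
      have := hLχ _ hρ
      rw [map_mul, map_inv, inv_mul_eq_one] at this
      exact this.symm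
    rw [← hFr ℓ hℓ hℓS A hA τ hτ a x hx, h1 x hx, h2, h3]
  choose P hP using hex
  have D : Dat M m χ P := ⟨hMtors, hMG, hMH, hP⟩
  have key : ∀ Q Q' : 𝓗, (∀ x ∈ M, Q • x = Q' • x) →
      Ideal.Quotient.mk (Ideal.span {((p : 𝕋)) ^ n}) (ev Q) = Ideal.Quotient.mk _ (ev Q') := by
    intro Q Q' h
    rw [Ideal.Quotient.eq, ← map_sub]
    apply hXsup
    intro x hx
    rw [sub_smul, h x (hXM x hx), sub_self]
  have hc : ∀ τ : GQ, cycTo (𝕋 ⧸ Ideal.span {((p : 𝕋)) ^ n}) m hmR τ =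
      Ideal.Quotient.mk _ (ev ((((χ τ : (ZMod m)ˣ) : ZMod m).val : ℕ) : 𝓗)) := by
    intro τ
    rw [map_natCast, map_natCast, ZMod.natCast_val]
    rfl
  have hin : ∀ q : ℕ, q.Prime → q ∉ U → ∀ A : ValuationSubring Qbar, A.LiesOverPrime q →
      ∀ τ ∈ A.inertiaSubgroupIn ℚ, ∀ σ : GQ,
        Ideal.Quotient.mk (Ideal.span {((p : 𝕋)) ^ n}) (ev (P (σ * τ))) =
          Ideal.Quotient.mk _ (ev (P σ)) :=
    fun q hq hqU A hA τ hτ σ => key _ _ fun x hx =>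
      D.triv_spec σ (fun x hx => hUnr q hq hqU A hA τ hτ x (hMp x hx))
        (cycloChar_of_mem_inertia' m hq (by
          apply Nat.Coprime.pow_right
          exact (Nat.coprime_primes hq hp).2 (fun h => hqU (h ▸ hpU))) hA hτ) hx
  refine ⟨fun σ => Ideal.Quotient.mk _ (ev (P σ)), cycTo _ m hmR, ?_, hin⟩
  exact
    { cyc := isCyc_cycTo _ m hmR _ (fun ℓ hℓ hdvd => by
        have := (Nat.prime_dvd_prime_iff_eq hℓ hp).1 (hℓ.dvd_of_dvd_pow hdvd)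
        rw [this]; exact hpS)
      lvl := ⟨L, hLfd, fun τ hτ σ => key _ _ fun x hx =>
        D.triv_spec σ (fun x hx => hx.2 τ hτ) (hLχ τ hτ) hx⟩
      one := by
        show Ideal.Quotient.mk _ (ev (P 1)) = 2
        rw [key (P 1) 2 fun x hx => D.one_spec hx, map_ofNat, map_ofNat]
      mul := fun σ τ => by
        show Ideal.Quotient.mk _ (ev (P σ)) * Ideal.Quotient.mk _ (ev (P τ)) =
          Ideal.Quotient.mk _ (ev (P (σ * τ))) + cycTo _ m hmR τ *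
            Ideal.Quotient.mk _ (ev (P (σ * τ⁻¹)))
        rw [hc τ, ← map_mul, ← map_mul, ← map_mul, ← map_mul, ← map_add, ← map_add]
        exact key _ _ fun x hx => D.mul_spec σ τ hx
      frob := fun ℓ hℓ hℓS A hA σ hσ => by
        refine key _ _ fun x hx => ?_
        have := hFr ℓ hℓ hℓS A hA σ hσ 1 x hx
        simp only [pow_one, lucasV] at this
        rw [← this, hP σ x hx]
      comm := fun σ τ => key _ _ fun x hx => D.comm_spec σ τ hx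
      inert := fun q hq hqS A hA τ hτ σ => hin q hq (fun h => hqS (hUS h)) A hA τ hτ σ }

end Fermat.Agent.GAL.PC
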