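import Fermat.Prelude.Def_CuspForm_HeckeGaloisRepDatum

/-!
# Pseudo-characters of `G_ℚ` (project GAL/PC): the interface

`IsPrePC S a t c` : `t : G_ℚ → R` is a two-dimensional pseudo-character with determinant `c`,
factoring through a finite level, with `t (Frob_ℓ) = a ℓ`, `c (Frob_ℓ) = ℓ` for `ℓ ∉ S`.
`IsPC` adds the invariance under conjugation and under the inertia groups outside `S`.
`HeckePC N S p` : such pseudo-characters exist with values in `𝕋 / p ^ n`, `𝕋` the Hecke algebra.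
-/

set_option autoImplicit false

namespace Fermat.Agent.GAL.PC

local notation "Qbar" => AlgebraicClosure ℚ
local notation "GQ" => (AlgebraicClosure ℚ ≃ₐ[ℚ] AlgebraicClosure ℚ)

/-- `c` is a character of finite level with `c (Frob_ℓ) = ℓ` for `ℓ ∉ S`. -/
structure IsCyc {R : Type*} [CommRing R] (S : Set ℕ) (c : GQ →* R) : Prop where
  lvl : ∃ L : IntermediateField ℚ Qbar, FiniteDimensional ℚ L ∧
    ∀ τ : GQ, (∀ x ∈ L, τ x = x) → c τ = 1
  frob : ∀ ℓ : ℕ, ℓ.Prime → ℓ ∉ S → ∀ A : ValuationSubring Qbar, A.LiesOverPrime ℓ →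
    ∀ σ : GQ, A.IsFrobeniusAt σ ℓ → c σ = (ℓ : R)

/-- A two-dimensional pseudo-character of finite level with prescribed values at Frobenius
lifts. -/
structure IsPrePC {R : Type*} [CommRing R] (S : Set ℕ) (a : ℕ → R) (t : GQ → R)
    (c : GQ →* R) : Prop where
  cyc : IsCyc S c
  lvl : ∃ L : IntermediateField ℚ Qbar, FiniteDimensional ℚ L ∧
    ∀ τ : GQ, (∀ x ∈ L, τ x = x) → ∀ σ : GQ, t (σ * τ) = t σ
  one : t 1 = 2
  mul : ∀ σ τ : GQ, t σ * t τ = t (σ * τ) + c τ * t (σ * τ⁻¹)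
  frob : ∀ ℓ : ℕ, ℓ.Prime → ℓ ∉ S → ∀ A : ValuationSubring Qbar, A.LiesOverPrime ℓ →
    ∀ σ : GQ, A.IsFrobeniusAt σ ℓ → t σ = a ℓ

/-- A pseudo-character which is moreover central and unramified outside `S`. -/
structure IsPC {R : Type*} [CommRing R] (S : Set ℕ) (a : ℕ → R) (t : GQ → R)
    (c : GQ →* R) : Prop extends IsPrePC S a t c where
  comm : ∀ σ τ : GQ, t (σ * τ) = t (τ * σ)
  inert : ∀ q : ℕ, q.Prime → q ∉ S → ∀ A : ValuationSubring Qbar, A.LiesOverPrime q →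
    ∀ τ ∈ A.inertiaSubgroupIn ℚ, ∀ σ : GQ, t (σ * τ) = t σ

theorem IsCyc.map {R R' : Type*} [CommRing R] [CommRing R'] (f : R →+* R') {S : Set ℕ}
    {c : GQ →* R} (h : IsCyc S c) : IsCyc S ((f : R →* R').comp c) where
  lvl := by
    obtain ⟨L, hL, h1⟩ := h.lvl
    exact ⟨L, hL, fun τ hτ => by simp [h1 τ hτ]⟩
  frob := fun ℓ hℓ hS A hA σ hσ => by simp [h.frob ℓ hℓ hS A hA σ hσ]

theorem IsPrePC.map {R R' : Type*} [CommRing R] [CommRing R'] (f : R →+* R') {S : Set ℕ}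
    {a : ℕ → R} {t : GQ → R} {c : GQ →* R} (h : IsPrePC S a t c) :
    IsPrePC S (fun ℓ => f (a ℓ)) (fun σ => f (t σ)) ((f : R →* R').comp c) where
  cyc := h.cyc.map f
  lvl := by
    obtain ⟨L, hL, h1⟩ := h.lvl
    exact ⟨L, hL, fun τ hτ σ => by simp only [h1 τ hτ σ]⟩
  one := by simp only [h.one]; exact map_ofNat f 2
  mul := fun σ τ => by
    rw [← map_mul, h.mul, map_add, map_mul]
    rfl
  frob := fun ℓ hℓ hS A hA σ hσ => by simp only [h.frob ℓ hℓ hS A hA σ hσ]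

theorem IsPC.map {R R' : Type*} [CommRing R] [CommRing R'] (f : R →+* R') {S : Set ℕ}
    {a : ℕ → R} {t : GQ → R} {c : GQ →* R} (h : IsPC S a t c) :
    IsPC S (fun ℓ => f (a ℓ)) (fun σ => f (t σ)) ((f : R →* R').comp c) where
  toIsPrePC := h.toIsPrePC.map f
  comm := fun σ τ => by simp only [h.comm σ τ]
  inert := fun q hq hS A hA τ hτ σ => by simp only [h.inert q hq hS A hA τ hτ σ]

open Classical in
/-- `T_ℓ` as a total function of `ℓ` (junk value `0`). -/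
noncomputable def heckeT (N : ℕ) [NeZero N] (S : Set ℕ) (ℓ : ℕ) : CuspForm.heckeAlgebra N 2 S :=
  if h : ℓ.Prime ∧ ¬ ℓ ∣ N ∧ ℓ ∉ S then CuspForm.heckeAlgebra.T h.1 h.2.1 h.2.2 else 0

theorem heckeT_eq {N : ℕ} [NeZero N] {S : Set ℕ} {ℓ : ℕ} (hℓ : ℓ.Prime) (hℓN : ¬ ℓ ∣ N)
    (hℓS : ℓ ∉ S) : heckeT N S ℓ = CuspForm.heckeAlgebra.T hℓ hℓN hℓS :=
  dif_pos ⟨hℓ, hℓN, hℓS⟩

/-- `t` is invariant under the inertia groups at the primes outside `U`. -/
def IsUnrOutside {R : Type*} (U : Set ℕ) (t : GQ → R) : Prop :=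
  ∀ q : ℕ, q.Prime → q ∉ U → ∀ A : ValuationSubring Qbar, A.LiesOverPrime q →
    ∀ τ ∈ A.inertiaSubgroupIn ℚ, ∀ σ : GQ, t (σ * τ) = t σ

theorem IsUnrOutside.map {R R' : Type*} (f : R → R') {U : Set ℕ} {t : GQ → R}
    (h : IsUnrOutside U t) : IsUnrOutside U (fun σ => f (t σ)) :=
  fun q hq hU A hA τ hτ σ => by simp only [h q hq hU A hA τ hτ σ]

/-- **The interface (PC)**: Hecke-algebra valued pseudo-characters modulo `p ^ n`, unramified
outside `N p`. -/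
def HeckePC (N : ℕ) [NeZero N] (S : Set ℕ) (p : ℕ) : Prop :=
  ∀ n : ℕ, ∃ (t : GQ → CuspForm.heckeAlgebra N 2 S ⧸
        Ideal.span {((p : CuspForm.heckeAlgebra N 2 S)) ^ n})
      (c : GQ →* CuspForm.heckeAlgebra N 2 S ⧸
        Ideal.span {((p : CuspForm.heckeAlgebra N 2 S)) ^ n}),
    IsPC S (fun ℓ => Ideal.Quotient.mk _ (heckeT N S ℓ)) t c ∧ IsUnrOutside {q | q ∣ N * p} t

end Fermat.Agent.GAL.PC
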