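import Fermat.Agent.GAL.PC.GlueAbs
import Fermat.Agent.GAL.EigenChar
import Fermat.Agent.GAL.S29Core
import Fermat.Agent.Cheb.Final

/-!
# Project GAL/PC: `HeckePC` from the interfaces of project GAL
-/

set_option autoImplicit false

namespace Fermat.Agent.GAL.PC

open ModularCurve CongruenceSubgroup Fermat.Agent.GAL.EigenChar
open scoped MatrixGroups

local notation "Qbar" => AlgebraicClosure ℚ
local notation "GQ" => (AlgebraicClosure ℚ ≃ₐ[ℚ] AlgebraicClosure ℚ)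

variable {N : ℕ} [NeZero N] {p : ℕ}

open Classical in
/-- the operator `T_ℓ` on the `p`-power torsion of `J₀(N)`, zero at the bad `ℓ` -/
noncomputable def Tp (N : ℕ) [NeZero N] (p : ℕ) (S : Set ℕ) (ℓ : ℕ) :
    Module.End ℤ (ptors (JZero N) p) :=
  if h : ℓ.Prime ∧ ℓ ∉ S then restrictPtors p (heckeOperatorBar N ⟨ℓ, h.1⟩).toAddMonoidHom else 0

theorem Tp_of_good {S : Set ℕ} {ℓ : ℕ} (hℓ : ℓ.Prime) (hS : ℓ ∉ S) :
    Tp N p S ℓ = restrictPtors p (heckeOperatorBar N ⟨ℓ, hℓ⟩).toAddMonoidHom :=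
  dif_pos ⟨hℓ, hS⟩

theorem Tp_of_bad {S : Set ℕ} {ℓ : ℕ} (h : ¬ (ℓ.Prime ∧ ℓ ∉ S)) : Tp N p S ℓ = 0 := dif_neg h

theorem heckeT_of_bad {S : Set ℕ} {ℓ : ℕ} (h : ¬ (ℓ.Prime ∧ ℓ ∉ S)) : heckeT N S ℓ = 0 :=
  dif_neg fun h' => h ⟨h'.1, h'.2.2⟩

/-- On `p`-power torsion `T_ℓ = φ + ℓ φ⁻¹` for a Frobenius lift `φ`. -/
theorem hecke_eq_frob (hQ : ESQuad N p) (L : Nat.Primes) (hℓNp : ¬ (L : ℕ) ∣ N * p) :
    ∃ φ : GQ, ∀ x : JZero N, x ∈ ptors (JZero N) p →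
      heckeOperatorBar N L x = φ • x + (L : ℕ) • (φ⁻¹ • x) := by
  obtain ⟨A, hA⟩ := Fermat.Agent.S54.exists_liesOverPrime L.2
  obtain ⟨φ, hφ⟩ := Fermat.Agent.S54.exists_isFrobeniusAt_of_liesOverPrime L.2 A hA
  refine ⟨φ, fun x hx => ?_⟩
  have h1 : φ • φ • φ⁻¹ • x - heckeOperatorBar N L (φ • φ⁻¹ • x) + (L : ℕ) • φ⁻¹ • x = 0 :=
    hQ L L.2 hℓNp A hA φ hφ (φ⁻¹ • x) (smul_mem_ptors φ⁻¹ hx)
  rw [smul_inv_smul] at h1
  have h2 : φ • x + (L : ℕ) • φ⁻¹ • x - heckeOperatorBar N L x = 0 := by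
    rw [← h1]; abel
  exact (sub_eq_zero.mp h2).symm

theorem hecke_comm_on_ptors (hGH : GalHecke N) (hQ : ESQuad N p) (L L' : Nat.Primes)
    (hℓNp : ¬ (L : ℕ) ∣ N * p) (x : JZero N) (hx : x ∈ ptors (JZero N) p) :
    heckeOperatorBar N L (heckeOperatorBar N L' x) =
      heckeOperatorBar N L' (heckeOperatorBar N L x) := by
  obtain ⟨φ, hφ⟩ := hecke_eq_frob hQ L hℓNp
  have hx' : heckeOperatorBar N L' x ∈ ptors (JZero N) p :=
    map_mem_ptors (heckeOperatorBar N L').toAddMonoidHom hx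
  rw [hφ x hx, hφ _ hx', map_add, map_nsmul, hGH, hGH]

theorem Tp_comm (hGH : GalHecke N) (hQ : ESQuad N p) {S : Set ℕ}
    (hS : ∀ ℓ : ℕ, ℓ.Prime → ℓ ∉ S → ¬ ℓ ∣ N * p) (ℓ ℓ' : ℕ) :
    Tp N p S ℓ * Tp N p S ℓ' = Tp N p S ℓ' * Tp N p S ℓ := by
  by_cases h : ℓ.Prime ∧ ℓ ∉ S
  swap
  · rw [Tp_of_bad h, zero_mul, mul_zero]
  by_cases h' : ℓ'.Prime ∧ ℓ' ∉ S
  swap
  · rw [Tp_of_bad h', zero_mul, mul_zero]
  rw [Tp_of_good h.1 h.2, Tp_of_good h'.1 h'.2]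
  refine LinearMap.ext fun x => Subtype.ext ?_
  exact hecke_comm_on_ptors hGH hQ ⟨ℓ, h.1⟩ ⟨ℓ', h'.1⟩ (hS ℓ h.1 h.2) x.1 x.2

section Sup

variable {S : Set ℕ} {m : ℕ}

variable (κ : GoodHom N m →+ JZero N) (k : ℕ) (hm : m = p ^ k)

/-- the Kummer homomorphism restricted to the characters of the period lattice -/
noncomputable def Xi : (perLat N →+ ZMod m) →+ ptors (JZero N) p :=
  (κ.comp (PerChar.toGoodHom (N := N) m)).codRestrict (ptors (JZero N) p) (fun ψ => by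
    refine ⟨k, ?_⟩
    rw [← hm, ← map_nsmul]
    have : m • (ψ : PerChar N (ZMod m)) = 0 := by
      refine AddMonoidHom.ext fun l => ?_
      change m • (show perLat N →+ ZMod m from ψ) l = 0
      rw [nsmul_eq_mul, ZMod.natCast_self, zero_mul]
    rw [this, map_zero])

theorem coe_Xi (ψ : perLat N →+ ZMod m) :
    ((Xi κ k hm ψ : ptors (JZero N) p) : JZero N) = κ (PerChar.toGoodHom m (PerChar.mk ψ)) := rfl

theorem Xi_injective (hκ : Function.Injective κ) : Function.Injective (Xi κ k hm) := by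
  intro ψ ψ' h
  have h1 := congrArg Subtype.val h
  rw [coe_Xi, coe_Xi] at h1
  exact PerChar.toGoodHom_injective m (hκ h1)

variable (hκT : ∀ (ℓ : Nat.Primes), ¬ (ℓ : ℕ) ∣ N → ∀ c c' : GoodHom N m,
      (haveI : NeZero (ℓ : ℕ) := ⟨ℓ.2.ne_zero⟩
       IsTransfer (ℓ : ℕ) (c : Additive (Gamma0 N) →+ ZMod m) c') →
        heckeOperatorBar N ℓ (κ c) = κ c')
  (hNS : ∀ ℓ : ℕ, ℓ.Prime → ℓ ∉ S → ¬ ℓ ∣ N)

include hκT hNS in
theorem Tp_Xi (ℓ : ℕ) (ψ : perLat N →+ ZMod m) :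
    Tp N p S ℓ (Xi κ k hm ψ) =
      Xi κ k hm (ψ.comp (latAct N S (heckeT N S ℓ)).toAddMonoidHom) := by
  by_cases h : ℓ.Prime ∧ ℓ ∉ S
  · rw [Tp_of_good h.1 h.2]
    apply Subtype.ext
    rw [coe_restrictPtors, coe_Xi, coe_Xi]
    have hℓN := hNS ℓ h.1 h.2
    refine hκT ⟨ℓ, h.1⟩ hℓN _ _ ?_
    intro γ σ d hd
    have : NeZero ℓ := ⟨h.1.ne_zero⟩
    change ψ (latAct N S (heckeT N S ℓ) (perL γ)) = ∑ x, ψ (perL (d x))
    rw [heckeT_eq h.1 hℓN h.2, latAct_T_perL h.1 hℓN h.2 γ σ d hd, map_sum]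
  · rw [Tp_of_bad h, heckeT_of_bad h, LinearMap.zero_apply]
    have : ψ.comp (latAct N S (0 : CuspForm.heckeAlgebra N 2 S)).toAddMonoidHom = 0 := by
      refine AddMonoidHom.ext fun l => ?_
      change ψ (latAct N S 0 l) = 0
      rw [map_zero, LinearMap.zero_apply, map_zero]
    rw [this]
    exact (map_zero (Xi κ k hm)).symm

end Sup

theorem latAct_injective (S : Set ℕ) : Function.Injective (latAct N S) := by
  rw [injective_iff_map_eq_zero]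
  intro t ht
  exact latAct_faithful S t fun l => by rw [ht, LinearMap.zero_apply]

/-- **`HeckePC` from the interfaces of project GAL.** -/
theorem heckePC_of_interfaces (hp : p.Prime) (S : Finset ℕ) (hpS : p ∈ S)
    (hNS : ∀ q : ℕ, q.Prime → q ∣ N → q ∈ S)
    (hGH : GalHecke N) (hOS : OpenStab N) (hU : ESUnram N p) (hQ : ESQuad N p)
    (hS : ∀ k : ℕ, SUP N (p ^ k)) : HeckePC N (↑S : Set ℕ) p := by
  intro n
  have hbad : ∀ ℓ : ℕ, ℓ.Prime → ℓ ∉ (↑S : Set ℕ) → ¬ ℓ ∣ N * p := by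
    intro ℓ hℓ hℓS hd
    rcases (Nat.Prime.dvd_mul hℓ).mp hd with h | h
    · exact hℓS (hNS ℓ hℓ h)
    · rw [(Nat.prime_dvd_prime_iff_eq hℓ hp).mp h] at hℓS
      exact hℓS hpS
  have hbadN : ∀ ℓ : ℕ, ℓ.Prime → ℓ ∉ (↑S : Set ℕ) → ¬ ℓ ∣ N :=
    fun ℓ hℓ hℓS hd => hℓS (hNS ℓ hℓ hd)
  obtain ⟨t, c, h1, h2⟩ := pc_of_abstract Fermat.Agent.Cheb.preludeSpec hp S
    {q | q.Prime ∧ q ∣ N * p} ⟨hp, Dvd.intro_left N rfl⟩
    (fun q hq => by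
      by_contra hqS
      exact hbad q hq.1 hqS hq.2)
    (J := ptors (JZero N) p) (Tp N p (↑S : Set ℕ)) (Tp_comm hGH hQ hbad)
    (fun ℓ σ x => by
      by_cases h : ℓ.Prime ∧ ℓ ∉ (↑S : Set ℕ)
      · exact Eq.mpr (congrArg (fun T : Module.End ℤ (ptors (JZero N) p) => σ • T x = T (σ • x))
          (Tp_of_good h.1 h.2))
          (ptors_comm σ (heckeOperatorBar N ⟨ℓ, h.1⟩).toAddMonoidHom x (hGH ⟨ℓ, h.1⟩ σ x.1))
      · exact Eq.mpr (congrArg (fun T : Module.End ℤ (ptors (JZero N) p) => σ • T x = T (σ • x))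
          (Tp_of_bad h)) (ptors_comm_zero σ x))
    (fun q hq hqU A hA σ hσ x _ =>
      ptors_fix σ x (hU q hq (fun hd => hqU ⟨hq, hd⟩) A hA σ hσ x.1 x.2))
    (fun ℓ hℓ hℓS A hA σ hσ x _ =>
      Eq.mpr (congrArg (fun T : Module.End ℤ (ptors (JZero N) p) =>
          σ • σ • x - T (σ • x) + ℓ • x = 0) (Tp_of_good hℓ hℓS))
        (ptors_quad σ (heckeOperatorBar N ⟨ℓ, hℓ⟩).toAddMonoidHom ℓ x
          (hQ ℓ hℓ (hbad ℓ hℓ hℓS) A hA σ hσ x.1 x.2)))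
    (fun x _ => by
      obtain ⟨n, hn⟩ := x.2
      obtain ⟨L, hL, h⟩ := hOS (p ^ n) (pow_ne_zero _ hp.ne_zero) x.1 hn
      exact ⟨L, hL, fun σ hσ => ptors_fix σ x (h σ hσ)⟩)
    (heckeT N (↑S : Set ℕ)) (latAct N (↑S : Set ℕ)) (latAct_injective _)
    (fun k => by
      obtain ⟨κ, hκ, hκT⟩ := hS k
      exact ⟨Xi κ k rfl, Xi_injective κ k rfl hκ, Tp_Xi κ k rfl hκT hbadN⟩) n
  exact ⟨t, c, h1, fun q hq hqU => h2 q hq fun h => hqU h.2⟩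

end Fermat.Agent.GAL.PC
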