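import Mathlib

/-!
# The lattice lemma (project GAL/PC)

`𝕋` a subring of `End_ℤ(Λ)`, `Λ` a finite free `ℤ`-module.  There is `k` such that every
`P ∈ 𝕋` with `P Λ ⊆ p ^ (n + k) Λ` lies in `p ^ n 𝕋`.
-/

set_option autoImplicit false

namespace Fermat.Agent.GAL.PC

/-- A finitely generated `ℤ`-submodule all of whose elements have a nonzero multiple in `T`
has a common such multiplier. -/
theorem exists_common_mul_of_fg {E : Type*} [AddCommGroup E] (T s : Submodule ℤ E)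
    (hs : s.FG) (h : ∀ Q ∈ s, ∃ d : ℕ, d ≠ 0 ∧ d • Q ∈ T) :
    ∃ d : ℕ, d ≠ 0 ∧ ∀ Q ∈ s, d • Q ∈ T := by
  classical
  obtain ⟨G, rfl⟩ := hs
  have h' : ∀ Q : E, ∃ d : ℕ, d ≠ 0 ∧ (Q ∈ G → d • Q ∈ T) := by
    intro Q
    by_cases hQ : Q ∈ G
    · obtain ⟨d, hd, hdQ⟩ := h Q (Submodule.subset_span hQ)
      exact ⟨d, hd, fun _ => hdQ⟩
    · exact ⟨1, one_ne_zero, fun h => absurd h hQ⟩
  choose d hd hdQ using h'
  refine ⟨∏ Q ∈ G, d Q, Finset.prod_ne_zero_iff.mpr fun Q _ => hd Q, ?_⟩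
  intro Q hQ
  induction hQ using Submodule.span_induction with
  | mem x hx =>
    obtain ⟨e, he⟩ := Finset.dvd_prod_of_mem d hx
    rw [he, mul_comm, mul_smul]
    exact T.smul_of_tower_mem e (hdQ x hx)
  | zero => simp
  | add x y _ _ hx hy => rw [smul_add]; exact T.add_mem hx hy
  | smul a x _ hx => rw [smul_comm]; exact T.smul_mem a hx

theorem lattice_lemma {Λ : Type*} [AddCommGroup Λ] [Module.Finite ℤ Λ] [Module.Free ℤ Λ]
    (𝕋 : Subring (Module.End ℤ Λ)) (p : ℕ) (hp : p.Prime) :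
    ∃ k : ℕ, ∀ (n : ℕ) (P : Module.End ℤ Λ), P ∈ 𝕋 →
      (∀ x : Λ, ∃ y : Λ, P x = (p ^ (n + k)) • y) → ∃ Q ∈ 𝕋, P = (p ^ n) • Q := by
  classical
  set T : Submodule ℤ (Module.End ℤ Λ) := 𝕋.toAddSubgroup.toIntSubmodule with hT
  have memT : ∀ Q, Q ∈ T ↔ Q ∈ 𝕋 := fun Q => Iff.rfl
  -- the saturation
  let sat : Submodule ℤ (Module.End ℤ Λ) :=
    { carrier := {Q | ∃ d : ℕ, d ≠ 0 ∧ d • Q ∈ T}
      zero_mem' := ⟨1, one_ne_zero, by simp⟩
      add_mem' := by
        rintro a b ⟨d, hd, hda⟩ ⟨e, he, heb⟩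
        refine ⟨d * e, mul_ne_zero hd he, ?_⟩
        rw [smul_add]
        refine T.add_mem ?_ ?_
        · rw [mul_comm, mul_smul]; exact T.smul_of_tower_mem e hda
        · rw [mul_smul]; exact T.smul_of_tower_mem d heb
      smul_mem' := by
        rintro c a ⟨d, hd, hda⟩
        exact ⟨d, hd, by rw [smul_comm]; exact T.smul_mem c hda⟩ }
  have hsatfg : sat.FG := IsNoetherian.noetherian sat
  obtain ⟨d0, hd0, hd0T⟩ := exists_common_mul_of_fg T sat hsatfg (fun Q hQ => hQ)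
  obtain ⟨k, d', hd', rfl⟩ := Nat.exists_eq_pow_mul_and_not_dvd hd0 p hp.ne_one
  refine ⟨k, fun n P hP hdiv => ?_⟩
  -- divide `P`
  let b := Module.Free.chooseBasis ℤ Λ
  choose y hy using hdiv
  let Q : Module.End ℤ Λ := b.constr ℤ (fun i => y (b i))
  have hPQ : P = (p ^ (n + k)) • Q := by
    refine b.ext fun i => ?_
    rw [LinearMap.smul_apply, Module.Basis.constr_basis, hy]
  have hQsat : Q ∈ sat :=
    ⟨p ^ (n + k), pow_ne_zero _ hp.ne_zero, by rw [← hPQ]; exact hP⟩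
  have hQT : (p ^ k * d') • Q ∈ 𝕋 := hd0T Q hQsat
  have hcop : IsCoprime (d' : ℤ) ((p : ℤ) ^ n) := by
    apply IsCoprime.pow_right
    rw [Nat.isCoprime_iff_coprime]
    exact ((Nat.Prime.coprime_iff_not_dvd hp).mpr hd').symm
  obtain ⟨u, v, huv⟩ := hcop
  refine ⟨u • ((p ^ k * d') • Q) + v • P, ?_, ?_⟩
  · exact 𝕋.add_mem (T.smul_mem u hQT) (T.smul_mem v hP)
  · have h1 : P = (u * d' + v * (p : ℤ) ^ n) • P := by rw [huv, one_smul]
    have h2 : (d' : ℤ) • P = (p ^ n) • ((p ^ k * d') • Q) := by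
      rw [hPQ]
      simp only [← natCast_zsmul, smul_smul]
      congr 1
      push_cast
      ring
    calc P = (u * d' + v * (p : ℤ) ^ n) • P := h1
      _ = u • ((d' : ℤ) • P) + v • (((p : ℤ) ^ n) • P) := by
          rw [add_smul, mul_smul, mul_smul]
      _ = u • ((p ^ n) • ((p ^ k * d') • Q)) + v • ((p ^ n) • P) := by
          rw [h2]
          congr 2
          rw [← natCast_zsmul]
          push_cast
          rfl
      _ = (p ^ n) • (u • ((p ^ k * d') • Q) + v • P) := by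
          rw [smul_add, smul_comm u, smul_comm v]

end Fermat.Agent.GAL.PC
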