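import Fermat.Agent.GAL.PC.GlueAlg
import Fermat.Agent.GAL.PC.Core
import Fermat.Agent.GAL.PC.LatticeLemma

/-!
# Project GAL/PC: the abstract form of the glue

An abelian group `J` with a Galois action and commuting operators `T ℓ`, satisfying the
Eichler-Shimura relations, and containing equivariantly the groups `Hom(Λ, ℤ/p^k)` for a lattice
`Λ` on which a commutative ring `𝕋` acts faithfully, gives `𝕋/p^n`-valued pseudo-characters.
-/

set_option autoImplicit false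

namespace Fermat.Agent.GAL.PC

local notation "Qbar" => AlgebraicClosure ℚ
local notation "GQ" => (AlgebraicClosure ℚ ≃ₐ[ℚ] AlgebraicClosure ℚ)

theorem finite_addHom_zmod {Λ : Type*} [AddCommGroup Λ] [Module.Free ℤ Λ] [Module.Finite ℤ Λ]
    (m : ℕ) [NeZero m] : Finite (Λ →+ ZMod m) := by
  classical
  let b := Module.Free.chooseBasis ℤ Λ
  refine Finite.of_injective (fun (ψ : Λ →+ ZMod m) i => ψ (b i)) fun ψ ψ' h => ?_
  have h1 : ψ.toIntLinearMap = ψ'.toIntLinearMap := b.ext fun i => congrFun h i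
  exact AddMonoidHom.toIntLinearMap_injective h1

theorem pc_of_abstract (hC : Fermat.Agent.Cheb.PreludeSpec) {p : ℕ} (hp : p.Prime) (S : Finset ℕ)
    (U : Set ℕ) (hpU : p ∈ U) (hUS : U ⊆ (↑S : Set ℕ))
    {J : Type*} [AddCommGroup J] [DistribMulAction GQ J]
    (T : ℕ → Module.End ℤ J) (hTcomm : ∀ i j, T i * T j = T j * T i)
    (hGT : ∀ (ℓ : ℕ) (σ : GQ) (x : J), σ • T ℓ x = T ℓ (σ • x))
    (hUnr : ∀ q : ℕ, q.Prime → q ∉ U → ∀ A : ValuationSubring Qbar, A.LiesOverPrime q →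
      ∀ σ ∈ A.inertiaSubgroupIn ℚ, ∀ x : J, (∃ n : ℕ, p ^ n • x = 0) → σ • x = x)
    (hFrob : ∀ ℓ : ℕ, ℓ.Prime → ℓ ∉ S → ∀ A : ValuationSubring Qbar, A.LiesOverPrime ℓ →
      ∀ σ : GQ, A.IsFrobeniusAt σ ℓ → ∀ x : J, (∃ n : ℕ, p ^ n • x = 0) →
        σ • σ • x - T ℓ (σ • x) + ℓ • x = 0)
    (hStab : ∀ x : J, (∃ n : ℕ, p ^ n • x = 0) →
      ∃ L : IntermediateField ℚ Qbar, FiniteDimensional ℚ L ∧
      ∀ σ : GQ, (∀ y ∈ L, σ y = y) → σ • x = x)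
    {𝕋 Λ : Type*} [CommRing 𝕋] [AddCommGroup Λ] [Module.Free ℤ Λ] [Module.Finite ℤ Λ]
    (a : ℕ → 𝕋) (lat : 𝕋 →+* Module.End ℤ Λ) (hlat : Function.Injective lat)
    (hSUP : ∀ k : ℕ, ∃ Ξ : (Λ →+ ZMod (p ^ k)) →+ J, Function.Injective Ξ ∧
      ∀ ℓ ψ, T ℓ (Ξ ψ) = Ξ (ψ.comp (lat (a ℓ)).toAddMonoidHom)) (n : ℕ) :
    ∃ (t : GQ → 𝕋 ⧸ Ideal.span {((p : 𝕋)) ^ n}) (c : GQ →* 𝕋 ⧸ Ideal.span {((p : 𝕋)) ^ n}),
      IsPC (↑S : Set ℕ) (fun ℓ => Ideal.Quotient.mk _ (a ℓ)) t c ∧ IsUnrOutside U t := by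
  obtain ⟨f, hf⟩ := exists_ringHom_of_commute T hTcomm
  letI : Module (MvPolynomial ℕ ℤ) J := Module.compHom J f
  have hsmul : ∀ (P : MvPolynomial ℕ ℤ) (x : J), P • x = f P x := fun _ _ => rfl
  haveI : SMulCommClass GQ (MvPolynomial ℕ ℤ) J := ⟨fun σ P x => by
    rw [hsmul, hsmul]
    induction P using MvPolynomial.induction_on generalizing x with
    | C a =>
      rw [eq_intCast (MvPolynomial.C : ℤ →+* MvPolynomial ℕ ℤ) a, map_intCast,
        Module.End.intCast_apply, Module.End.intCast_apply, smul_comm]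
    | add P Q hP hQ => rw [map_add, LinearMap.add_apply, LinearMap.add_apply, smul_add, hP, hQ]
    | mul_X P i hP =>
      rw [map_mul, Module.End.mul_apply, Module.End.mul_apply, hP, hf, hGT]⟩
  let ev : MvPolynomial ℕ ℤ →+* 𝕋 := (MvPolynomial.aeval a).toRingHom
  have hev : ∀ ℓ, ev (MvPolynomial.X ℓ) = a ℓ := fun ℓ => MvPolynomial.aeval_X _ ℓ
  have key := core hC hp S U hpU hUS (𝓗 := MvPolynomial ℕ ℤ) (𝕋 := 𝕋) (J := J)
    (fun ℓ => MvPolynomial.X ℓ) ev hUnr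
    (fun ℓ hℓ hS A hA σ hσ x hx => by
      rw [hsmul, hf]
      exact hFrob ℓ hℓ hS A hA σ hσ x hx) hStab ?_ n
  · simpa only [hev] using key
  · intro n
    obtain ⟨k₀, hk₀⟩ := lattice_lemma lat.range p hp
    have : NeZero (p ^ (n + k₀)) := ⟨pow_ne_zero _ hp.ne_zero⟩
    obtain ⟨Ξ, hΞ, hΞT⟩ := hSUP (n + k₀)
    have := finite_addHom_zmod (Λ := Λ) (p ^ (n + k₀))
    refine ⟨Set.range Ξ, Set.finite_range Ξ, ?_, ?_⟩
    · rintro _ ⟨ψ, rfl⟩
      refine ⟨n + k₀, ?_⟩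
      rw [← map_nsmul]
      have : p ^ (n + k₀) • ψ = 0 := by
        refine AddMonoidHom.ext fun l => ?_
        rw [AddMonoidHom.nsmul_apply, nsmul_eq_mul, ZMod.natCast_self, zero_mul,
          AddMonoidHom.zero_apply]
      rw [this, map_zero]
    · intro P hP
      have h1 := divisible_of_kills f (lat.comp ev) Ξ hΞ (fun i ψ => by
        rw [hf, hΞT, RingHom.comp_apply, hev]) P (fun ψ => hP _ ⟨ψ, rfl⟩)
      obtain ⟨Q, ⟨Q', rfl⟩, hQ⟩ := hk₀ n (lat (ev P)) ⟨_, rfl⟩ h1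
      have h2 : ev P = (p : 𝕋) ^ n * Q' := by
        apply hlat
        rw [hQ, map_mul, map_pow, map_natCast, nsmul_eq_mul, Nat.cast_pow]
      rw [h2]
      exact Ideal.mul_mem_right _ _ (Ideal.mem_span_singleton_self _)

end Fermat.Agent.GAL.PC
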