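import Fermat.Agent.GAL.PC.GlueAbs
import Fermat.Agent.GAL.PC.CoreRaw

/-!
# Project GAL/PC: the abstract form of the glue, raw version

Same as `pc_of_abstract`, exporting in addition the module `M`, the operators `P σ` and the
transfer principle, and the clause `t τ = 2` for `τ` acting unipotently (for project SS).
-/

set_option autoImplicit false

namespace Fermat.Agent.GAL.PC

local notation "Qbar" => AlgebraicClosure ℚ
local notation "GQ" => (AlgebraicClosure ℚ ≃ₐ[ℚ] AlgebraicClosure ℚ)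

theorem ptors_unip {G J : Type*} [Group G] [AddCommGroup J] [DistribMulAction G J] {p : ℕ}
    (τ : G) (x : ptors J p) (h : τ • τ • x.1 - 2 • τ • x.1 + x.1 = 0) :
    τ • τ • x - 2 • τ • x + x = 0 := Subtype.ext h

/-- `σ` acts on the `p`-power roots of unity by raising to the power `a`. -/
def CycEq (p : ℕ) (σ : GQ) (a : ℕ) : Prop :=
  ∀ (m : ℕ) [NeZero m], (∃ k : ℕ, m = p ^ k) → (cycloChar m σ : ZMod m) = a

/-- The raw output of the construction of the pseudo-character `t` modulo `p ^ n`. -/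
def RawOut (p n : ℕ) {J : Type*} [AddCommGroup J] [DistribMulAction GQ J]
    (T : ℕ → Module.End ℤ J) {𝕋 : Type*} [CommRing 𝕋] (a : ℕ → 𝕋)
    (t : GQ → 𝕋 ⧸ Ideal.span {((p : 𝕋)) ^ n}) : Prop :=
  ∃ (f : MvPolynomial ℕ ℤ →+* Module.End ℤ J) (M : AddSubgroup J)
    (P : GQ → MvPolynomial ℕ ℤ),
    (∀ ℓ, f (MvPolynomial.X ℓ) = T ℓ) ∧
    (∀ x ∈ M, ∃ k : ℕ, p ^ k • x = 0) ∧ (∀ σ : GQ, ∀ x ∈ M, σ • x ∈ M) ∧
    (∀ h : MvPolynomial ℕ ℤ, ∀ x ∈ M, f h x ∈ M) ∧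
    (∀ (σ : GQ) (h : MvPolynomial ℕ ℤ) (x : J), σ • f h x = f h (σ • x)) ∧
    (∀ σ : GQ, t σ = Ideal.Quotient.mk _ (MvPolynomial.aeval a (P σ))) ∧
    (∀ (σ : GQ) (b : ℕ), CycEq p σ b → ∀ x ∈ M, σ • x + b • σ⁻¹ • x = f (P σ) x) ∧
    (∀ Q : MvPolynomial ℕ ℤ, (∀ x ∈ M, f Q x = 0) →
      MvPolynomial.aeval a Q ∈ Ideal.span {((p : 𝕋)) ^ n})

/-- `τ` acts unipotently on the `p`-power torsion. -/
def ActsUnip (p : ℕ) (J : Type*) [AddCommGroup J] [DistribMulAction GQ J] (τ : GQ) : Prop :=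
  ∀ x : J, (∃ n : ℕ, p ^ n • x = 0) → τ • τ • x - 2 • τ • x + x = 0

theorem actsUnip_ptors {J : Type*} [AddCommGroup J] [DistribMulAction GQ J] {p : ℕ} {τ : GQ}
    (h : ActsUnip p J τ) : ActsUnip p (ptors J p) τ :=
  fun x _ => ptors_unip τ x (h x.1 x.2)

theorem pc_of_abstract_raw (hC : Fermat.Agent.Cheb.PreludeSpec) {p : ℕ} (hp : p.Prime)
    (S : Finset ℕ) (U : Set ℕ) (hpU : p ∈ U) (hUS : U ⊆ (↑S : Set ℕ))
    {J : Type*} [AddCommGroup J] [DistribMulAction GQ J]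
    (T : ℕ → Module.End ℤ J) (hTcomm : ∀ i j, T i * T j = T j * T i)
    (hGT : ∀ (ℓ : ℕ) (σ : GQ) (x : J), σ • T ℓ x = T ℓ (σ • x))
    (hUnr : ∀ q : ℕ, q.Prime → q ∉ U → ∀ A : ValuationSubring Qbar, A.LiesOverPrime q →
      ∀ σ ∈ A.inertiaSubgroupIn ℚ, ∀ x : J, (∃ n : ℕ, p ^ n • x = 0) → σ • x = x)
    (hFrob : ∀ ℓ : ℕ, ℓ.Prime → ℓ ∉ S → ∀ A : ValuationSubring Qbar, A.LiesOverPrime ℓ →
      ∀ σ : GQ, A.IsFrobeniusAt σ ℓ → ∀ x : J, (∃ n : ℕ, p ^ n • x = 0) →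
        σ • σ • x - T ℓ (σ • x) + ℓ • x = 0)
    (hStab : ∀ x : J, (∃ n : ℕ, p ^ n • x = 0) →
      ∃ L : IntermediateField ℚ Qbar, FiniteDimensional ℚ L ∧
      ∀ σ : GQ, (∀ y ∈ L, σ y = y) → σ • x = x)
    {𝕋 Λ : Type*} [CommRing 𝕋] [AddCommGroup Λ] [Module.Free ℤ Λ] [Module.Finite ℤ Λ]
    (a : ℕ → 𝕋) (lat : 𝕋 →+* Module.End ℤ Λ) (hlat : Function.Injective lat)
    (hSUP : ∀ k : ℕ, ∃ Ξ : (Λ →+ ZMod (p ^ k)) →+ J, Function.Injective Ξ ∧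
      ∀ ℓ ψ, T ℓ (Ξ ψ) = Ξ (ψ.comp (lat (a ℓ)).toAddMonoidHom)) (n : ℕ) :
    ∃ (t : GQ → 𝕋 ⧸ Ideal.span {((p : 𝕋)) ^ n}) (c : GQ →* 𝕋 ⧸ Ideal.span {((p : 𝕋)) ^ n}),
      IsPC (↑S : Set ℕ) (fun ℓ => Ideal.Quotient.mk _ (a ℓ)) t c ∧ IsUnrOutside U t ∧
      (∀ τ : GQ, CycEq p τ 1 → ActsUnip p J τ → t τ = 2) ∧ RawOut p n T a t := by
  obtain ⟨f, hf⟩ := exists_ringHom_of_commute T hTcomm
  let _ : Module (MvPolynomial ℕ ℤ) J := Module.compHom J f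
  have hsmul : ∀ (P : MvPolynomial ℕ ℤ) (x : J), P • x = f P x := fun _ _ => rfl
  have hcomm : SMulCommClass GQ (MvPolynomial ℕ ℤ) J := ⟨fun σ P x => by
    rw [hsmul, hsmul]
    induction P using MvPolynomial.induction_on generalizing x with
    | C a =>
      rw [eq_intCast (MvPolynomial.C : ℤ →+* MvPolynomial ℕ ℤ) a, map_intCast,
        Module.End.intCast_apply, Module.End.intCast_apply, smul_comm]
    | add P Q hP hQ => rw [map_add, LinearMap.add_apply, LinearMap.add_apply, smul_add, hP, hQ]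
    | mul_X P i hP =>
      rw [map_mul, Module.End.mul_apply, Module.End.mul_apply, hP, hf, hGT]⟩
  let ev : MvPolynomial ℕ ℤ →+* 𝕋 := (MvPolynomial.aeval a).toRingHom
  have hev : ∀ ℓ, ev (MvPolynomial.X ℓ) = a ℓ := fun ℓ => MvPolynomial.aeval_X _ ℓ
  have key := core_raw hC hp S U hpU hUS (𝓗 := MvPolynomial ℕ ℤ) (𝕋 := 𝕋) (J := J)
    (fun ℓ => MvPolynomial.X ℓ) ev hUnr
    (fun ℓ hℓ hS A hA σ hσ x hx => by
      rw [hsmul, hf]
      exact hFrob ℓ hℓ hS A hA σ hσ x hx) hStab ?_ n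
  · obtain ⟨t, c, h1, h2, M, P, hMp, hMG, hMH, htP, hspec, htr⟩ := key
    refine ⟨t, c, by simpa only [hev] using h1, h2, ?_, f, M, P, hf, hMp, hMG, hMH,
      fun σ h x => hcomm.smul_comm σ h x, htP, hspec, htr⟩
    intro τ hτ hun
    rw [htP τ]
    have h3 : ev (P τ - 2) ∈ Ideal.span {((p : 𝕋)) ^ n} := by
      apply htr
      intro x hx
      have h4 := hspec τ 1 hτ x hx
      have h5 := hun (τ⁻¹ • x) (hMp _ (hMG _ x hx))
      rw [smul_inv_smul] at h5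
      rw [sub_smul, ← h4, one_smul, ← h5, hsmul 2 x, map_ofNat, Module.End.ofNat_apply]
      abel
    rw [map_sub, map_ofNat] at h3
    have h6 := (Ideal.Quotient.eq (I := Ideal.span {((p : 𝕋)) ^ n})).mpr h3
    rw [h6, map_ofNat]
  · intro n
    obtain ⟨k₀, hk₀⟩ := lattice_lemma lat.range p hp
    have : NeZero (p ^ (n + k₀)) := ⟨pow_ne_zero _ hp.ne_zero⟩
    obtain ⟨Ξ, hΞ, hΞT⟩ := hSUP (n + k₀)
    have := finite_addHom_zmod (Λ := Λ) (p ^ (n + k₀))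
    refine ⟨Set.range Ξ, Set.finite_range Ξ, ?_, ?_⟩
    · rintro _ ⟨ψ, rfl⟩
      refine ⟨n + k₀, ?_⟩
      rw [← map_nsmul]
      have : p ^ (n + k₀) • ψ = 0 := by
        refine AddMonoidHom.ext fun l => ?_
        rw [AddMonoidHom.nsmul_apply, nsmul_eq_mul, ZMod.natCast_self, zero_mul,
          AddMonoidHom.zero_apply]
      rw [this, map_zero]
    · intro P hP
      have h1 := divisible_of_kills f (lat.comp ev) Ξ hΞ (fun i ψ => by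
        rw [hf, hΞT, RingHom.comp_apply, hev]) P (fun ψ => hP _ ⟨ψ, rfl⟩)
      obtain ⟨Q, ⟨Q', rfl⟩, hQ⟩ := hk₀ n (lat (ev P)) ⟨_, rfl⟩ h1
      have h2 : ev P = (p : 𝕋) ^ n * Q' := by
        apply hlat
        rw [hQ, map_mul, map_pow, map_natCast, nsmul_eq_mul, Nat.cast_pow]
      rw [h2]
      exact Ideal.mul_mem_right _ _ (Ideal.mem_span_singleton_self _)

end Fermat.Agent.GAL.PC
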