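import Mathlib

/-!
# Project GAL/PC: algebraic preliminaries for the glue

* a commuting family of endomorphisms gives an action of the polynomial ring;
* an element of a finite free `ℤ`-module killed by all homomorphisms to `ℤ/m` is divisible by `m`;
* the `p`-power torsion subgroup with its induced group action.
-/

set_option autoImplicit false

namespace Fermat.Agent.GAL.PC

open scoped IsMulCommutative in
/-- A commuting family of endomorphisms defines a ring homomorphism from the polynomial ring. -/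
theorem exists_ringHom_of_commute {ι M : Type*} [AddCommGroup M] (T : ι → Module.End ℤ M)
    (h : ∀ i j, T i * T j = T j * T i) :
    ∃ f : MvPolynomial ι ℤ →+* Module.End ℤ M, ∀ i, f (MvPolynomial.X i) = T i := by
  have hc : IsMulCommutative (Algebra.adjoin ℤ (Set.range T)) :=
    Algebra.isMulCommutative_adjoin ℤ (by
      rintro _ ⟨i, rfl⟩ _ ⟨j, rfl⟩
      exact h i j)
  let g : MvPolynomial ι ℤ →ₐ[ℤ] Algebra.adjoin ℤ (Set.range T) :=
    MvPolynomial.aeval fun i => ⟨T i, Algebra.subset_adjoin ⟨i, rfl⟩⟩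
  refine ⟨((Algebra.adjoin ℤ (Set.range T)).val.comp g).toRingHom, fun i => ?_⟩
  change ((g (MvPolynomial.X i) : Algebra.adjoin ℤ (Set.range T)) : Module.End ℤ M) = T i
  rw [MvPolynomial.aeval_X]

/-- An element of a finite free `ℤ`-module killed by all homomorphisms to `ℤ/m` is divisible by
`m`. -/
theorem exists_nsmul_of_forall_hom {Λ : Type*} [AddCommGroup Λ] [Module.Free ℤ Λ]
    [Module.Finite ℤ Λ] (m : ℕ) (y : Λ) (h : ∀ ψ : Λ →+ ZMod m, ψ y = 0) :
    ∃ z : Λ, y = m • z := by
  classical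
  let b := Module.Free.chooseBasis ℤ Λ
  have h1 : ∀ i, (m : ℤ) ∣ b.repr y i := by
    intro i
    have := h ((Int.castAddHom (ZMod m)).comp (b.coord i).toAddMonoidHom)
    exact (ZMod.intCast_zmod_eq_zero_iff_dvd _ _).mp this
  choose w hw using h1
  refine ⟨∑ i, w i • b i, ?_⟩
  rw [Finset.smul_sum]
  conv_lhs => rw [← b.sum_repr y]
  refine Finset.sum_congr rfl fun i _ => ?_
  rw [hw i, mul_smul, natCast_zsmul]

/-- Equivariance on generators implies equivariance. -/
theorem equivariant_of_gen {ι Λ M A : Type*} [AddCommGroup Λ] [AddCommGroup M] [AddCommGroup A]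
    (f : MvPolynomial ι ℤ →+* Module.End ℤ M) (g : MvPolynomial ι ℤ →+* Module.End ℤ Λ)
    (Ξ : (Λ →+ A) →+ M)
    (hX : ∀ i ψ, f (MvPolynomial.X i) (Ξ ψ) = Ξ (ψ.comp (g (MvPolynomial.X i)).toAddMonoidHom))
    (P : MvPolynomial ι ℤ) (ψ : Λ →+ A) :
    f P (Ξ ψ) = Ξ (ψ.comp (g P).toAddMonoidHom) := by
  induction P using MvPolynomial.induction_on generalizing ψ with
  | C a =>
    rw [eq_intCast (MvPolynomial.C : ℤ →+* MvPolynomial ι ℤ) a, map_intCast, map_intCast,
      Module.End.intCast_apply]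
    have : ψ.comp ((a : Module.End ℤ Λ)).toAddMonoidHom = a • ψ := by
      refine AddMonoidHom.ext fun l => ?_
      change ψ ((a : Module.End ℤ Λ) l) = a • ψ l
      rw [Module.End.intCast_apply, map_zsmul]
    rw [this, map_zsmul]
  | add P Q hP hQ =>
    rw [map_add, LinearMap.add_apply, hP, hQ, ← map_add]
    congr 1
    refine AddMonoidHom.ext fun l => ?_
    change ψ (g P l) + ψ (g Q l) = ψ (g (P + Q) l)
    rw [map_add, LinearMap.add_apply, map_add]
  | mul_X P i hP =>
    rw [map_mul, Module.End.mul_apply, hX, hP]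
    congr 1
    refine AddMonoidHom.ext fun l => ?_
    change ψ (g (MvPolynomial.X i) (g P l)) = ψ (g (P * MvPolynomial.X i) l)
    rw [mul_comm, map_mul, Module.End.mul_apply]

/-- If `P` kills the image of an injective equivariant map from `Hom(Λ, ℤ/m)`, then `P` maps `Λ`
into `m Λ`. -/
theorem divisible_of_kills {ι Λ M : Type*} [AddCommGroup Λ] [AddCommGroup M] [Module.Free ℤ Λ]
    [Module.Finite ℤ Λ] {m : ℕ}
    (f : MvPolynomial ι ℤ →+* Module.End ℤ M) (g : MvPolynomial ι ℤ →+* Module.End ℤ Λ)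
    (Ξ : (Λ →+ ZMod m) →+ M) (hΞ : Function.Injective Ξ)
    (hX : ∀ i ψ, f (MvPolynomial.X i) (Ξ ψ) = Ξ (ψ.comp (g (MvPolynomial.X i)).toAddMonoidHom))
    (P : MvPolynomial ι ℤ) (h : ∀ ψ, f P (Ξ ψ) = 0) (l : Λ) :
    ∃ y : Λ, g P l = m • y := by
  refine exists_nsmul_of_forall_hom m _ fun ψ => ?_
  have h1 := h ψ
  rw [equivariant_of_gen f g Ξ hX, ← map_zero Ξ] at h1
  exact DFunLike.congr_fun (hΞ h1) l

section Ptors

variable (G J : Type*) [Group G] [AddCommGroup J] [DistribMulAction G J] (p : ℕ)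

/-- the `p`-power torsion subgroup -/
def ptors : AddSubgroup J where
  carrier := {x | ∃ n : ℕ, p ^ n • x = 0}
  zero_mem' := ⟨0, smul_zero _⟩
  add_mem' := by
    rintro a b ⟨n, hn⟩ ⟨k, hk⟩
    refine ⟨n + k, ?_⟩
    rw [smul_add, pow_add, mul_smul _ _ b, hk, smul_zero, add_zero, mul_comm, mul_smul, hn,
      smul_zero]
  neg_mem' := by
    rintro a ⟨n, hn⟩
    exact ⟨n, by rw [smul_neg, hn, neg_zero]⟩

variable {J p}

theorem mem_ptors {x : J} : x ∈ ptors J p ↔ ∃ n : ℕ, p ^ n • x = 0 := Iff.rfl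

variable {G}

theorem smul_mem_ptors (σ : G) {x : J} (hx : x ∈ ptors J p) : σ • x ∈ ptors J p := by
  obtain ⟨n, hn⟩ := hx
  exact ⟨n, by rw [← smul_comm σ (p ^ n) x, hn, smul_zero]⟩

theorem map_mem_ptors (f : J →+ J) {x : J} (hx : x ∈ ptors J p) : f x ∈ ptors J p := by
  obtain ⟨n, hn⟩ := hx
  exact ⟨n, by rw [← map_nsmul, hn, map_zero]⟩

instance : DistribMulAction G (ptors J p) where
  smul σ x := ⟨σ • x.1, smul_mem_ptors σ x.2⟩
  one_smul x := Subtype.ext (one_smul G x.1)
  mul_smul σ τ x := Subtype.ext (mul_smul σ τ x.1)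
  smul_zero σ := Subtype.ext (smul_zero σ)
  smul_add σ x y := Subtype.ext (smul_add σ x.1 y.1)

@[simp] theorem coe_smul_ptors (σ : G) (x : ptors J p) : ((σ • x : ptors J p) : J) = σ • x.1 := rfl

/-- restriction of an endomorphism to the `p`-power torsion -/
def restrictPtors (p : ℕ) (f : J →+ J) : Module.End ℤ (ptors J p) :=
  AddMonoidHom.toIntLinearMap
    { toFun := fun x => ⟨f x.1, map_mem_ptors f x.2⟩
      map_zero' := Subtype.ext (map_zero f)
      map_add' := fun x y => Subtype.ext (map_add f x.1 y.1) }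

@[simp] theorem coe_restrictPtors (f : J →+ J) (x : ptors J p) :
    ((restrictPtors p f x : ptors J p) : J) = f x.1 := rfl

theorem ptors_quad (σ : G) (f : J →+ J) (ℓ : ℕ) (x : ptors J p)
    (h : σ • σ • x.1 - f (σ • x.1) + ℓ • x.1 = 0) :
    σ • σ • x - restrictPtors p f (σ • x) + ℓ • x = 0 := Subtype.ext h

theorem ptors_comm (σ : G) (f : J →+ J) (x : ptors J p) (h : σ • f x.1 = f (σ • x.1)) :
    σ • restrictPtors p f x = restrictPtors p f (σ • x) := Subtype.ext h

theorem ptors_comm_zero (σ : G) (x : ptors J p) :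
    σ • (0 : Module.End ℤ (ptors J p)) x = (0 : Module.End ℤ (ptors J p)) (σ • x) := by
  rw [LinearMap.zero_apply, LinearMap.zero_apply, smul_zero]

theorem ptors_fix (σ : G) (x : ptors J p) (h : σ • x.1 = x.1) : σ • x = x := Subtype.ext h

end Ptors

end Fermat.Agent.GAL.PC
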