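import Fermat.Agent.GAL.PC.Glue
import Fermat.Agent.GAL.PC.GlueAbsRaw

/-!
# Project GAL/PC: raw form of `heckePC_of_interfaces` (for the bad primes, project SS)
-/

set_option autoImplicit false

namespace Fermat.Agent.GAL.PC

open ModularCurve CongruenceSubgroup Fermat.Agent.GAL.EigenChar
open scoped MatrixGroups

local notation "Qbar" => AlgebraicClosure ℚ
local notation "GQ" => (AlgebraicClosure ℚ ≃ₐ[ℚ] AlgebraicClosure ℚ)

variable {N : ℕ} [NeZero N] {p : ℕ}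

theorem cycEq_of_mem_inertia (hp : p.Prime) {q : ℕ} (hq : q.Prime) (hqp : q ≠ p)
    {A : ValuationSubring Qbar} (hA : A.LiesOverPrime q) {τ : GQ}
    (hτ : τ ∈ A.inertiaSubgroupIn ℚ) : CycEq p τ 1 := by
  rintro m _ ⟨k, rfl⟩
  rw [cycloChar_of_mem_inertia' (p ^ k) hq
    (Nat.Coprime.pow_right _ ((Nat.coprime_primes hq hp).2 hqp)) hA hτ]
  simp

theorem cycEq_of_isFrobeniusAt (hp : p.Prime) {q : ℕ} (hq : q.Prime) (hqp : q ≠ p)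
    {A : ValuationSubring Qbar} (hA : A.LiesOverPrime q) {σ : GQ}
    (hσ : A.IsFrobeniusAt σ q) : CycEq p σ q := by
  rintro m _ ⟨k, rfl⟩
  exact cycloChar_of_isFrobeniusAt' (p ^ k) hq
    (Nat.Coprime.pow_right _ ((Nat.coprime_primes hq hp).2 hqp)) hA hσ

/-- **Raw form of `heckePC_of_interfaces`.**  `J := ptors (JZero N) p` is the `p`-power torsion
of `J₀(N)`, with the operators `Tp N p S ℓ` (`= T_ℓ` for `ℓ ∉ S` prime, `0` otherwise). -/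
theorem heckePC_raw (hp : p.Prime) (S : Finset ℕ) (hpS : p ∈ S)
    (hNS : ∀ q : ℕ, q.Prime → q ∣ N → q ∈ S)
    (hGH : GalHecke N) (hOS : OpenStab N) (hU : ESUnram N p) (hQ : ESQuad N p)
    (hS : ∀ k : ℕ, SUP N (p ^ k)) (n : ℕ) :
    ∃ (t : GQ → CuspForm.heckeAlgebra N 2 (↑S : Set ℕ) ⧸
        Ideal.span {((p : CuspForm.heckeAlgebra N 2 (↑S : Set ℕ))) ^ n})
      (c : GQ →* CuspForm.heckeAlgebra N 2 (↑S : Set ℕ) ⧸
        Ideal.span {((p : CuspForm.heckeAlgebra N 2 (↑S : Set ℕ))) ^ n}),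
      IsPC (↑S : Set ℕ) (fun ℓ => Ideal.Quotient.mk _ (heckeT N (↑S : Set ℕ) ℓ)) t c ∧
      IsUnrOutside {q | q ∣ N * p} t ∧
      (∀ τ : GQ, CycEq p τ 1 → ActsUnip p (JZero N) τ → t τ = 2) ∧
      RawOut p n (Tp N p (↑S : Set ℕ)) (heckeT N (↑S : Set ℕ)) t := by
  have hbad : ∀ ℓ : ℕ, ℓ.Prime → ℓ ∉ (↑S : Set ℕ) → ¬ ℓ ∣ N * p := by
    intro ℓ hℓ hℓS hd
    rcases (Nat.Prime.dvd_mul hℓ).mp hd with h | h
    · exact hℓS (hNS ℓ hℓ h)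
    · rw [(Nat.prime_dvd_prime_iff_eq hℓ hp).mp h] at hℓS
      exact hℓS hpS
  have hbadN : ∀ ℓ : ℕ, ℓ.Prime → ℓ ∉ (↑S : Set ℕ) → ¬ ℓ ∣ N :=
    fun ℓ hℓ hℓS hd => hℓS (hNS ℓ hℓ hd)
  obtain ⟨t, c, h1, h2, h3, h4⟩ :=
    pc_of_abstract_raw Fermat.Agent.Cheb.preludeSpec hp S
    {q | q.Prime ∧ q ∣ N * p} ⟨hp, Dvd.intro_left N rfl⟩
    (fun q hq => by
      by_contra hqS
      exact hbad q hq.1 hqS hq.2)
    (J := ptors (JZero N) p) (Tp N p (↑S : Set ℕ)) (Tp_comm hGH hQ hbad)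
    (fun ℓ σ x => by
      by_cases h : ℓ.Prime ∧ ℓ ∉ (↑S : Set ℕ)
      · exact Eq.mpr (congrArg (fun T : Module.End ℤ (ptors (JZero N) p) => σ • T x = T (σ • x))
          (Tp_of_good h.1 h.2))
          (ptors_comm σ (heckeOperatorBar N ⟨ℓ, h.1⟩).toAddMonoidHom x (hGH ⟨ℓ, h.1⟩ σ x.1))
      · exact Eq.mpr (congrArg (fun T : Module.End ℤ (ptors (JZero N) p) => σ • T x = T (σ • x))
          (Tp_of_bad h)) (ptors_comm_zero σ x))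
    (fun q hq hqU A hA σ hσ x _ =>
      ptors_fix σ x (hU q hq (fun hd => hqU ⟨hq, hd⟩) A hA σ hσ x.1 x.2))
    (fun ℓ hℓ hℓS A hA σ hσ x _ =>
      Eq.mpr (congrArg (fun T : Module.End ℤ (ptors (JZero N) p) =>
          σ • σ • x - T (σ • x) + ℓ • x = 0) (Tp_of_good hℓ hℓS))
        (ptors_quad σ (heckeOperatorBar N ⟨ℓ, hℓ⟩).toAddMonoidHom ℓ x
          (hQ ℓ hℓ (hbad ℓ hℓ hℓS) A hA σ hσ x.1 x.2)))
    (fun x _ => by
      obtain ⟨n, hn⟩ := x.2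
      obtain ⟨L, hL, h⟩ := hOS (p ^ n) (pow_ne_zero _ hp.ne_zero) x.1 hn
      exact ⟨L, hL, fun σ hσ => ptors_fix σ x (h σ hσ)⟩)
    (heckeT N (↑S : Set ℕ)) (latAct N (↑S : Set ℕ)) (latAct_injective _)
    (fun k => by
      obtain ⟨κ, hκ, hκT⟩ := hS k
      exact ⟨Xi κ k rfl, Xi_injective κ k rfl hκ, Tp_Xi κ k rfl hκT hbadN⟩) n
  exact ⟨t, c, h1, fun q hq hqU => h2 q hq fun h => hqU h.2,
    fun τ hτ hun => h3 τ hτ (actsUnip_ptors hun), h4⟩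

end Fermat.Agent.GAL.PC
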