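import Fermat.Agent.GAL.PC.GlueRaw
import Fermat.Agent.GAL.PC.Wire
import Fermat.Agent.GAL.PC.Limit
import Fermat.Prelude.Def_GaloisRep_LocalConditions

/-!
# S34 from the interfaces of project GAL and the interface `UNIP` of project SS
-/

set_option autoImplicit false
open Polynomial IsLocalRing

namespace Fermat.Agent.GAL.PC

open ModularCurve

local notation "Qbar" => AlgebraicClosure ℚ
local notation "GQ" => (AlgebraicClosure ℚ ≃ₐ[ℚ] AlgebraicClosure ℚ)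

/-- **Interface (UNIP)**: the inertia groups at `q` act unipotently on the `p`-power torsion of
`J₀(N)`:  `τ² x - 2 τ x + x = 0`. -/
def UNIP (N p q : ℕ) : Prop :=
  ∀ A : ValuationSubring Qbar, A.LiesOverPrime q → ∀ τ ∈ A.inertiaSubgroupIn ℚ,
    ActsUnip p (JZero N) τ

/-- characteristic polynomial of an endomorphism of a free module of rank two -/
theorem charpoly_eq_of_finrank_two {R V : Type*} [CommRing R] [Nontrivial R] [AddCommGroup V]
    [Module R V] [Module.Free R V] [Module.Finite R V] (h : Module.finrank R V = 2)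
    (f : Module.End R V) :
    LinearMap.charpoly f = X ^ 2 - C (LinearMap.trace R V f) * X + C (LinearMap.det f) := by
  let b : Module.Basis (Fin 2) R V := Module.finBasisOfFinrankEq R V h
  rw [← LinearMap.charpoly_toMatrix f b, Matrix.charpoly_fin_two,
    LinearMap.trace_eq_matrix_trace R b f, ← LinearMap.det_toMatrix b f]

variable {𝒪 : Type} [CommRing 𝒪] [IsDomain 𝒪] [IsDiscreteValuationRing 𝒪]
    [IsAdicComplete (maximalIdeal 𝒪) 𝒪]
    {p : ℕ} {N : ℕ} [NeZero N] {S : Finset ℕ}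
    {θ : CuspForm.heckeAlgebra N 2 (↑S : Set ℕ) →+* ResidueField 𝒪}
    {T : Type} [CommRing T] [IsLocalRing T] [IsNoetherianRing T]
    [IsAdicComplete (maximalIdeal T) T] [Algebra 𝒪 T] [IsLocalHom (algebraMap 𝒪 T)]
    [Module.Finite 𝒪 T] [Module.Free 𝒪 T]

/-- S34 from the interfaces. -/
theorem s34_of_interfaces (hES : ESUnram N p ∧ ESQuad N p) (hS : ∀ k : ℕ, SUP N (p ^ k))
    (hp : p.Prime) (hp𝒪 : (p : 𝒪) ∈ maximalIdeal 𝒪)
    (hpS : p ∈ S) (hNS : ∀ q : ℕ, q.Prime → q ∣ N → q ∈ S)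
    (H : CuspForm.HeckeGaloisRepDatum N (↑S : Set ℕ) 𝒪 θ T)
    (q : ℕ) (hq : q.Prime) (hqp : q ≠ p) (hUN : UNIP N p q) :
    H.ρ.IsUnipotentOnInertiaAt q := by
  have hpT : (p : T) ∈ maximalIdeal T := by
    have h1 : (p : T) = algebraMap 𝒪 T (p : 𝒪) := (map_natCast _ _).symm
    rw [h1, mem_maximalIdeal, mem_nonunits_iff]
    intro hu
    exact (mem_maximalIdeal _).mp hp𝒪 (isUnit_of_map_unit (algebraMap 𝒪 T) _ hu)
  intro P hP τ hτ
  have hcyc := cycEq_of_mem_inertia hp hq hqp hP hτ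
  have htr : LinearMap.trace T H.ρ.V (H.ρ.ρ τ) = 2 := by
    refine eq_of_forall_mk_eq (maximalIdeal T) fun n => ?_
    obtain ⟨t, c, hpc, -, hun, -⟩ := heckePC_raw hp S hpS hNS (galHecke N) (openStab N) hES.1 hES.2
      hS n
    have h1 := hpc.toIsPrePC.map (quotMap H.π (maximalIdeal T) p hpT n)
    have h2 := isPrePC_of_rep H.ρ (↑S : Set ℕ) (fun ℓ => H.π (heckeT N (↑S : Set ℕ) ℓ))
      (fun ℓ hℓ hℓS A hA σ hσ => by
        have hℓN : ¬ ℓ ∣ N := fun h => hℓS (hNS ℓ hℓ h)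
        rw [heckeT_eq hℓ hℓN hℓS]
        exact H.charpoly_frob ℓ hℓ hℓN hℓS A hA σ hσ) n
    have h3 := congrFun (IsPrePC.unique Fermat.Agent.Cheb.preludeSpec h2 h1) τ
    rw [h3, hun τ hcyc (hUN P hP τ hτ), map_ofNat, map_ofNat]
  have hdet : LinearMap.det (H.ρ.ρ τ) = 1 := by
    refine eq_of_forall_mk_eq (maximalIdeal T) fun n => ?_
    have h2 := isPrePC_of_rep H.ρ (↑S : Set ℕ) (fun ℓ => H.π (heckeT N (↑S : Set ℕ) ℓ))
      (fun ℓ hℓ hℓS A hA σ hσ => by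
        have hℓN : ¬ ℓ ∣ N := fun h => hℓS (hNS ℓ hℓ h)
        rw [heckeT_eq hℓ hℓN hℓS]
        exact H.charpoly_frob ℓ hℓ hℓN hℓS A hA σ hσ) n
    have : NeZero (p ^ n) := ⟨pow_ne_zero _ hp.ne_zero⟩
    have h0 : ((p ^ n : ℕ) : T ⧸ maximalIdeal T ^ n) = 0 := by
      rw [← map_natCast (Ideal.Quotient.mk (maximalIdeal T ^ n)), Ideal.Quotient.eq_zero_iff_mem,
        Nat.cast_pow]
      exact Ideal.pow_mem_pow hpT n
    have h3 := isCyc_cycTo (T ⧸ maximalIdeal T ^ n) (p ^ n) h0 (↑S : Set ℕ) (fun ℓ hℓ hd => by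
      rw [(Nat.prime_dvd_prime_iff_eq hℓ hp).1 (hℓ.dvd_of_dvd_pow hd)]
      exact hpS)
    have h4 := DFunLike.congr_fun (IsCyc.unique Fermat.Agent.Cheb.preludeSpec h2.cyc h3) τ
    have h5 : Ideal.Quotient.mk (maximalIdeal T ^ n) (LinearMap.det (H.ρ.ρ τ)) =
        cycTo (T ⧸ maximalIdeal T ^ n) (p ^ n) h0 τ := h4
    rw [h5, cycTo_apply, hcyc (p ^ n) ⟨n, rfl⟩, Nat.cast_one, map_one, map_one]
  rw [charpoly_eq_of_finrank_two H.ρ.finrank_eq, htr, hdet]
  simp only [map_ofNat, map_one]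
  ring

end Fermat.Agent.GAL.PC
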